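import Fermat.Agent.PoitouTate.Values
import Fermat.Agent.Places.Basic

/-!
# Elementary facts for the counting in Poitou-Tate duality

Enlarging the field, transporting cochains along equivariant maps, finiteness, and dimensions of
quotients.
-/

set_option autoImplicit false
set_option linter.style.haveILetI false
set_option linter.unusedSectionVars false

noncomputable section

open scoped Pointwise

namespace FLTAgent.PoitouTate

open FLTAgent.Lowering.P1 FLTAgent.Lowering.P1.Brauer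

local notation "LL" => AlgebraicClosure ℚ
local notation "GG" => (AlgebraicClosure ℚ ≃ₐ[ℚ] AlgebraicClosure ℚ)
local notation "VS" => ValuationSubring (AlgebraicClosure ℚ)
local notation "Dec" => ValuationSubring.decompositionSubgroup ℚ

variable {p : ℕ} [Fact p.Prime] {S : Finset Nat.Primes}

/-! ### Fields -/

theorem galOf_eq (L : IntermediateField ℚ LL) (g : GG) :
    g ∈ galOf L ↔ g ∈ L.fixingSubgroup := Iff.rfl

theorem exists_normal_field_unramified {E : IntermediateField ℚ LL} (hE : E.IsUnramifiedOutside S) :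
    ∃ N : IntermediateField ℚ LL, N.IsUnramifiedOutside S ∧ Normal ℚ N ∧ E ≤ N := by
  haveI := hE.1
  haveI : Normal ℚ LL := normal_iff.2 fun x => ⟨integral_coe x, IsAlgClosed.splits _⟩
  refine ⟨IntermediateField.normalClosure ℚ E LL,
    ⟨normalClosure.is_finiteDimensional ℚ E LL, fun q hq W hW σ hσ => ?_⟩,
    normalClosure.normal ℚ E LL, E.le_normalClosure⟩
  have key : IntermediateField.normalClosure ℚ E LL ≤
      IntermediateField.fixedField (Subgroup.zpowers σ) := by
    refine (IntermediateField.normalClosure_def' E).trans_le (iSup_le fun f => ?_)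
    rintro _ ⟨x, hx, rfl⟩
    rw [IntermediateField.mem_fixedField_iff]
    intro τ hτ
    obtain ⟨k, rfl⟩ := Subgroup.mem_zpowers_iff.1 hτ
    let γ : GG := AlgEquiv.ofBijective f (Algebra.IsAlgebraic.algHom_bijective f)
    have hconj : γ⁻¹ * σ * γ ∈ E.fixingSubgroup := by
      have h := Places.conj_mem_inertia W hσ γ⁻¹
      rw [inv_inv] at h
      exact hE.2 q hq (γ⁻¹ • W) (Places.liesOverPrime_smul W γ⁻¹ hW) h
    have h1 : (γ⁻¹ * σ ^ k * γ) x = x := by
      have hk : γ⁻¹ * σ ^ k * γ = (γ⁻¹ * σ * γ) ^ k := by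
        have h := (conj_zpow (i := k) (a := γ⁻¹) (b := σ)).symm
        rwa [inv_inv] at h
      rw [hk]
      exact (IntermediateField.mem_fixingSubgroup_iff _ _).1 (zpow_mem hconj k) x hx
    show (σ ^ k) (γ x) = γ x
    have h2 := congrArg γ h1
    simp only [AlgEquiv.mul_apply] at h2
    rwa [show γ (γ⁻¹ ((σ ^ k) (γ x))) = (σ ^ k) (γ x) from γ.apply_symm_apply _] at h2
  rw [IntermediateField.mem_fixingSubgroup_iff]
  exact fun x hx => (IntermediateField.mem_fixedField_iff _ _).1 (key hx) σ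
    (Subgroup.mem_zpowers σ)

theorem SField.isUnramified (F : SField p S) : F.K.IsUnramifiedOutside S := F.unram

theorem SField.mem_N (F : SField p S) (g : GG) : g ∈ F.N ↔ g ∈ F.K.fixingSubgroup := Iff.rfl

/-- A larger field. -/
theorem SField.exists_extend (F : SField p S) {E : IntermediateField ℚ LL}
    (hE : E.IsUnramifiedOutside S) :
    ∃ F' : SField p S, F'.N ≤ F.N ∧ ∀ g ∈ F'.N, g ∈ E.fixingSubgroup := by
  obtain ⟨N, hN, hNn, hle⟩ := exists_normal_field_unramified (F.unram.sup hE)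
  have h1 : galOf N ≤ galOf F.K := IntermediateField.fixingSubgroup_antitone (le_sup_left.trans hle)
  exact ⟨⟨N, hN.1, hNn, hN, fun g hg => F.zeta g (h1 hg)⟩, h1,
    fun g hg => IntermediateField.fixingSubgroup_antitone (le_sup_right.trans hle) hg⟩

variable {A : Type} [AddCommGroup A] [Module (ZMod p) A] {ρ : Representation (ZMod p) GG A}
  {B : Type} [AddCommGroup B] [Module (ZMod p) B] {σ : Representation (ZMod p) GG B}

theorem SField.Triv.smooth {F : SField p S} (h : F.Triv ρ) : Smooth ρ :=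
  ⟨F.K, F.fd, h⟩

theorem SField.Triv.mono {F F' : SField p S} (hle : F'.N ≤ F.N) (h : F.Triv ρ) : F'.Triv ρ :=
  fun g hg => h g (hle hg)

theorem SField.triv_coind (F : SField p S) (A : Type) [AddCommGroup A] [Module (ZMod p) A] :
    F.Triv (F.coind A) := fun g hg => LinearMap.ext fun f => funext fun x => by
  rw [SField.coind_apply, (QuotientGroup.eq_one_iff g).2 hg, mul_one, LinearMap.id_apply]

/-- A finite dimensional space of cochains has one level. -/
theorem exists_levS_subspace (Y : Submodule (ZMod p) (GG → A)) [FiniteDimensional (ZMod p) Y]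
    (hY : Y ≤ C1S (MonoidHom.id GG) S) :
    ∃ E : IntermediateField ℚ LL, E.IsUnramifiedOutside S ∧
      ∀ y ∈ Y, ∀ g s : GG, s ∈ E.fixingSubgroup → y (g * s) = y g := by
  classical
  obtain ⟨t, ht⟩ := (Y.fg_iff_finiteDimensional).2 inferInstance
  have key : ∀ u : Finset (GG → A), u ⊆ t → ∃ E : IntermediateField ℚ LL,
      E.IsUnramifiedOutside S ∧ ∀ y ∈ u, ∀ g s : GG, s ∈ E.fixingSubgroup → y (g * s) = y g := by
    intro u hu
    induction u using Finset.induction_on with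
    | empty => exact ⟨⊥, IntermediateField.isUnramifiedOutside_bot S, by simp⟩
    | insert a u _ ih =>
      obtain ⟨E, hE, hEy⟩ := ih fun x hx => hu (Finset.mem_insert_of_mem hx)
      obtain ⟨E', hE', ha⟩ := hY (ht ▸ Submodule.subset_span (hu (Finset.mem_insert_self a u)))
      refine ⟨E ⊔ E', hE.sup hE', fun y hy g s hs => ?_⟩
      rcases Finset.mem_insert.1 hy with rfl | hy
      · exact ha g s (IntermediateField.fixingSubgroup_antitone le_sup_right hs)
      · exact hEy y hy g s (IntermediateField.fixingSubgroup_antitone le_sup_left hs)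
  obtain ⟨E, hE, hEy⟩ := key t (Finset.Subset.refl t)
  refine ⟨E, hE, fun y hy g s hs => ?_⟩
  rw [← ht] at hy
  exact Submodule.span_induction (p := fun y _ => y (g * s) = y g) (fun y hy => hEy y hy g s hs)
    rfl (fun _ _ _ _ h h' => by simp only [Pi.add_apply, h, h'])
    (fun r _ _ h => by simp only [Pi.smul_apply, h]) hy

/-! ### Equivariant maps -/

/-- Commutes with the actions. -/
def Equivar (ρ : Representation (ZMod p) GG A) (σ : Representation (ZMod p) GG B)
    (f : A →ₗ[ZMod p] B) : Prop :=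
  ∀ g a, f (ρ g a) = σ g (f a)

variable {G : Type} [Group G] {ι : G →* GG}

/-- Composition of one cochains with a linear map. -/
def push1 (f : A →ₗ[ZMod p] B) : (G → A) →ₗ[ZMod p] G → B := f.compLeft G

/-- Composition of two cochains with a linear map. -/
def push2 (f : A →ₗ[ZMod p] B) : (G → G → A) →ₗ[ZMod p] G → G → B := (f.compLeft G).compLeft G

theorem push1_apply (f : A →ₗ[ZMod p] B) (c : G → A) (g : G) : push1 f c g = f (c g) := rfl

theorem push2_apply (f : A →ₗ[ZMod p] B) (c : G → G → A) (g h : G) :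
    push2 f c g h = f (c g h) := rfl

theorem push2_d1 {f : A →ₗ[ZMod p] B} (hf : Equivar ρ σ f) (u : G → A) :
    push2 f (d1 ρ ι u) = d1 σ ι (push1 f u) := by
  funext g h
  simp only [push2_apply, d1_apply, map_add, map_sub, hf (ι g), push1_apply]

theorem push1_d0 {f : A →ₗ[ZMod p] B} (hf : Equivar ρ σ f) (a : A) :
    push1 f (d0 ρ ι a) = d0 σ ι (f a) := by
  funext g
  simp only [push1_apply, d0_apply, map_sub, hf (ι g)]

theorem push1_mem_C1 (f : A →ₗ[ZMod p] B) {c : G → A} (hc : c ∈ C1 (p := p) (A := A) ι) :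
    push1 f c ∈ C1 (p := p) (A := B) ι := by
  obtain ⟨E, hE, h⟩ := hc
  exact ⟨E, hE, fun g s hs => by rw [push1_apply, push1_apply, h g s hs]⟩

theorem push1_mem_C1S (f : A →ₗ[ZMod p] B) {c : G → A} (hc : c ∈ C1S (p := p) (A := A) ι S) :
    push1 f c ∈ C1S (p := p) (A := B) ι S := by
  obtain ⟨E, hE, h⟩ := hc
  exact ⟨E, hE, fun g s hs => by rw [push1_apply, push1_apply, h g s hs]⟩

theorem push1_mem_Z1 {f : A →ₗ[ZMod p] B} (hf : Equivar ρ σ f) {c : G → A} (hc : c ∈ Z1 ρ ι) :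
    push1 f c ∈ Z1 σ ι :=
  ⟨push1_mem_C1 f hc.1, fun g h => by simp only [push1_apply, hc.2 g h, map_add, hf (ι g)]⟩

theorem push1_mem_Z1S {f : A →ₗ[ZMod p] B} (hf : Equivar ρ σ f) {c : G → A}
    (hc : c ∈ Z1S ρ ι S) : push1 f c ∈ Z1S σ ι S :=
  ⟨push1_mem_Z1 hf hc.1, push1_mem_C1S f hc.2⟩

theorem push1_mem_B1 {f : A →ₗ[ZMod p] B} (hf : Equivar ρ σ f) {c : G → A} (hc : c ∈ B1 ρ ι) :
    push1 f c ∈ B1 σ ι := by
  obtain ⟨a, rfl⟩ := hc
  exact ⟨f a, (push1_d0 hf a).symm⟩

theorem push2_mem_B2 {f : A →ₗ[ZMod p] B} (hf : Equivar ρ σ f) {c : G → G → A}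
    (hc : c ∈ B2 ρ ι) : push2 f c ∈ B2 σ ι := by
  obtain ⟨u, hu, rfl⟩ := hc
  exact ⟨push1 f u, push1_mem_C1 f hu, (push2_d1 hf u).symm⟩

theorem push2_mem_B2S {f : A →ₗ[ZMod p] B} (hf : Equivar ρ σ f) {c : G → G → A}
    (hc : c ∈ B2S ρ ι S) : push2 f c ∈ B2S σ ι S := by
  obtain ⟨u, hu, rfl⟩ := hc
  exact ⟨push1 f u, push1_mem_C1S f hu, (push2_d1 hf u).symm⟩

theorem push2_mem_Z2 {f : A →ₗ[ZMod p] B} (hf : Equivar ρ σ f) {c : G → G → A}
    (hc : c ∈ Z2 ρ ι) : push2 f c ∈ Z2 σ ι := by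
  obtain ⟨⟨E, hE, h⟩, hcoc⟩ := hc
  refine ⟨⟨E, hE, fun g g' s t hs ht => by rw [push2_apply, push2_apply, h g g' s t hs ht]⟩,
    fun g g' j => ?_⟩
  simp only [push2_apply, ← hf (ι g), ← map_sub, ← map_add, hcoc g g' j, map_zero]

theorem push2_mem_Z2S {f : A →ₗ[ZMod p] B} (hf : Equivar ρ σ f) {c : G → G → A}
    (hc : c ∈ Z2S ρ ι S) : push2 f c ∈ Z2S σ ι S := by
  refine ⟨push2_mem_Z2 hf hc.1, ?_⟩
  obtain ⟨E, hE, h⟩ := hc.2
  exact ⟨E, hE, fun g g' s t hs ht => by rw [push2_apply, push2_apply, h g g' s t hs ht]⟩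

theorem res2_push2 {G' : Type} [Group G'] (j : G' →* G) (f : A →ₗ[ZMod p] B) (c : G → G → A) :
    res2 (p := p) j (push2 f c) = push2 f (res2 (p := p) j c) := rfl

theorem res1_push1 {G' : Type} [Group G'] (j : G' →* G) (f : A →ₗ[ZMod p] B) (c : G → A) :
    res1 (p := p) j (push1 f c) = push1 f (res1 (p := p) j c) := rfl

variable (V : Nat.Primes → VS)

theorem mem_sha2 {c : GG → GG → A} :
    c ∈ Sha2 ρ S V ↔ c ∈ Z2S ρ (MonoidHom.id GG) S ∧
      ∀ q ∈ S, res2 (p := p) (Dec (V q)).subtype c ∈ B2 ρ (Dec (V q)).subtype := by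
  simp [Sha2, Submodule.mem_iInf]

theorem mem_sha1 {c : GG → A} :
    c ∈ Sha1 ρ S V ↔ c ∈ Z1S ρ (MonoidHom.id GG) S ∧
      ∀ q ∈ S, res1 (p := p) (Dec (V q)).subtype c ∈ B1 ρ (Dec (V q)).subtype := by
  simp [Sha1, Submodule.mem_iInf]

variable {V}

theorem push1_mem_sha1 {f : A →ₗ[ZMod p] B} (hf : Equivar ρ σ f) {c : GG → A}
    (hc : c ∈ Sha1 ρ S V) : push1 f c ∈ Sha1 σ S V := by
  rw [mem_sha1] at hc ⊢
  exact ⟨push1_mem_Z1S hf hc.1, fun q hq => by
    rw [res1_push1]; exact push1_mem_B1 hf (hc.2 q hq)⟩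

theorem d0_mem_Z1S {F : SField p S} (hρ : F.Triv ρ) (a : A) :
    d0 ρ (MonoidHom.id GG) a ∈ Z1S ρ (MonoidHom.id GG) S := by
  refine ⟨d0_mem_Z1 hρ.smooth a, F.K, F.unram, fun g s hs => ?_⟩
  simp only [d0_apply, MonoidHom.id_apply, rho_mul, hρ s hs, LinearMap.id_apply]

theorem B1_le_Z1S {F : SField p S} (hρ : F.Triv ρ) :
    B1 ρ (MonoidHom.id GG) ≤ Z1S ρ (MonoidHom.id GG) S := by
  rintro _ ⟨a, rfl⟩
  exact d0_mem_Z1S hρ a

theorem B1_le_sha1 {F : SField p S} (hρ : F.Triv ρ) :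
    B1 ρ (MonoidHom.id GG) ≤ Sha1 ρ S V := fun c hc => (mem_sha1 V).2 ⟨B1_le_Z1S hρ hc, fun q _ => by
  obtain ⟨a, rfl⟩ := hc
  exact ⟨a, rfl⟩⟩

theorem sha1_le_Z1S : Sha1 ρ S V ≤ Z1S ρ (MonoidHom.id GG) S := inf_le_left

theorem d1_mem_Z2S {F : SField p S} (hρ : F.Triv ρ) {u : GG → A}
    (hu : u ∈ C1S (p := p) (A := A) (MonoidHom.id GG) S) :
    d1 ρ (MonoidHom.id GG) u ∈ Z2S ρ (MonoidHom.id GG) S := by
  refine ⟨d1_mem_Z2 hρ.smooth (C1S_le_C1 S hu), ?_⟩
  obtain ⟨E, hE, hu⟩ := hu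
  obtain ⟨N, hN, hNn, hle⟩ := exists_normal_field_unramified (hE.sup F.unram)
  refine ⟨N, hN, fun g h s t hs ht => ?_⟩
  simp only [MonoidHom.id_apply] at hs ht hu
  have hs' := IntermediateField.fixingSubgroup_antitone (le_sup_left.trans hle) hs
  have ht' := IntermediateField.fixingSubgroup_antitone (le_sup_left.trans hle) ht
  have h3 : u (g * s * (h * t)) = u (g * h) := by
    rw [show g * s * (h * t) = g * h * (h⁻¹ * s * h * t) by group]
    exact hu _ _ (IntermediateField.fixingSubgroup_antitone (le_sup_left.trans hle)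
      (mul_mem (fix_conj hs h) ht))
  simp only [d1_apply, MonoidHom.id_apply, hu g s hs', hu h t ht', h3, rho_mul,
    hρ s (IntermediateField.fixingSubgroup_antitone (le_sup_right.trans hle) hs),
    LinearMap.id_apply]

/-! ### Finiteness -/

theorem finite_Z1S {F : SField p S} (hρ : F.Triv ρ) [FiniteDimensional (ZMod p) A]
    [FiniteDimensional (ZMod p) ↥(Z1S (omRep p) F.N.subtype S)] :
    FiniteDimensional (ZMod p) ↥(Z1S ρ (MonoidHom.id GG) S) := by
  classical
  let b := Module.finBasis (ZMod p) A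
  have hco : ∀ c ∈ Z1S ρ (MonoidHom.id GG) S, ∀ i,
      (fun n : ↥F.N => b.coord i (c n)) ∈ Z1S (omRep p) F.N.subtype S := by
    intro c hc i
    obtain ⟨⟨⟨E, hE, hl⟩, hcoc⟩, E', hE', hl'⟩ := hc
    refine ⟨⟨⟨E, hE, fun g s hs => ?_⟩, fun g h => ?_⟩, E', hE', fun g s hs => ?_⟩
    · show b.coord i (c ((g : GG) * s)) = _
      rw [hl (g : GG) s hs]
    · show b.coord i (c ((g : GG) * h)) = _
      rw [hcoc, MonoidHom.id_apply, hρ g g.2, LinearMap.id_apply, map_add, omRep_apply,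
        Subgroup.coe_subtype, F.zeta _ (g.2 : (g : GG) ∈ galOf F.K), one_mul]
    · show b.coord i (c ((g : GG) * s)) = _
      rw [hl' (g : GG) s hs]
  let T : ↥(Z1S ρ (MonoidHom.id GG) S) →ₗ[ZMod p]
      (Fin (Module.finrank (ZMod p) A) → ↥(Z1S (omRep p) F.N.subtype S)) × (F.Γ → A) :=
    LinearMap.prod
      (LinearMap.pi fun i => LinearMap.codRestrict _
        ((b.coord i).compLeft ↥F.N ∘ₗ
          res1 (p := p) F.N.subtype ∘ₗ (Z1S ρ (MonoidHom.id GG) S).subtype)
        fun c => hco c c.2 i)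
      ((LinearMap.funLeft (ZMod p) A fun x : F.Γ => x.out) ∘ₗ
        (Z1S ρ (MonoidHom.id GG) S).subtype)
  have hT : Function.Injective T := by
    rw [injective_iff_map_eq_zero]
    intro c hc
    have h2 : ∀ x : F.Γ, (c : GG → A) x.out = 0 := fun x => congrFun (congrArg Prod.snd hc) x
    have h1 : ∀ n : ↥F.N, (c : GG → A) n = 0 := fun n => b.ext_elem fun i => by
      have h := congrFun (Subtype.ext_iff.1 (congrFun (congrArg Prod.fst hc) i)) n
      rw [map_zero]
      exact h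
    refine Subtype.ext (funext fun g => ?_)
    have hg : ((QuotientGroup.mk g : F.Γ).out)⁻¹ * g ∈ F.N :=
      QuotientGroup.eq.1 (QuotientGroup.out_eq' _)
    have := c.2.1.2 (QuotientGroup.mk g : F.Γ).out (((QuotientGroup.mk g : F.Γ).out)⁻¹ * g)
    rw [mul_inv_cancel_left, h2, h1 ⟨_, hg⟩, map_zero, add_zero] at this
    exact this
  exact Module.Finite.of_injective T hT

/-! ### Dimensions of quotients -/

section Dim

variable {M : Type} [AddCommGroup M] [Module (ZMod p) M]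

theorem sh_mk_eq_zero {Z B : Submodule (ZMod p) M} {c : M} (hc : c ∈ Z) :
    (Submodule.Quotient.mk ⟨c, hc⟩ : SH Z B) = 0 ↔ c ∈ B := by
  rw [Submodule.Quotient.mk_eq_zero]
  rfl

variable {W X Y : Type} [AddCommGroup W] [Module (ZMod p) W] [AddCommGroup X]
  [Module (ZMod p) X] [AddCommGroup Y] [Module (ZMod p) Y]

/-- A relation which is onto one side and injective towards it bounds its dimension. -/
theorem finite_of_rel (f : W →ₗ[ZMod p] X) (g : W →ₗ[ZMod p] Y) (hg : Function.Surjective g)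
    (hle : LinearMap.ker f ≤ LinearMap.ker g) [FiniteDimensional (ZMod p) (LinearMap.range f)] :
    FiniteDimensional (ZMod p) Y ∧
      Module.finrank (ZMod p) Y ≤ Module.finrank (ZMod p) (LinearMap.range f) := by
  let h : LinearMap.range f →ₗ[ZMod p] Y :=
    (Submodule.liftQ _ g hle) ∘ₗ f.quotKerEquivRange.symm.toLinearMap
  have hsurj : Function.Surjective h := fun y => by
    obtain ⟨w, rfl⟩ := hg y
    refine ⟨f.quotKerEquivRange (Submodule.Quotient.mk w), ?_⟩
    simp [h]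
  exact ⟨Module.Finite.of_surjective h hsurj, LinearMap.finrank_le_finrank_of_surjective hsurj⟩

end Dim

end FLTAgent.PoitouTate
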