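import Fermat.Agent.PoitouTate.Sha.Middle

/-!
# The upper bound for the second Tate-Shafarevich group

Through the embedding into a coinduced module: the kernel is bounded by the middle of the
sequence of the cokernel, the image by the lift of the coinduced module.
-/

set_option autoImplicit false
set_option linter.style.haveILetI false
set_option linter.unusedSectionVars false
set_option maxHeartbeats 1000000
set_option synthInstance.maxHeartbeats 200000

noncomputable section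

open scoped Pointwise

namespace FLTAgent.PoitouTate

open FLTAgent.Lowering.P1 FLTAgent.Lowering.P1.Brauer

local notation "LL" => AlgebraicClosure ℚ
local notation "GG" => (AlgebraicClosure ℚ ≃ₐ[ℚ] AlgebraicClosure ℚ)
local notation "VS" => ValuationSubring (AlgebraicClosure ℚ)
local notation "Dec" => ValuationSubring.decompositionSubgroup ℚ
local notation "idG" => MonoidHom.id (AlgebraicClosure ℚ ≃ₐ[ℚ] AlgebraicClosure ℚ)

variable {p : ℕ} [Fact p.Prime] {S : Finset Nat.Primes} {V : Nat.Primes → VS} {F : SField p S}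
  {A A' I I' Q Q' : Type} [AddCommGroup A] [Module (ZMod p) A] [AddCommGroup A']
  [Module (ZMod p) A'] [AddCommGroup I] [Module (ZMod p) I] [AddCommGroup I'] [Module (ZMod p) I']
  [AddCommGroup Q] [Module (ZMod p) Q] [AddCommGroup Q'] [Module (ZMod p) Q']
  [FiniteDimensional (ZMod p) A] [FiniteDimensional (ZMod p) A'] [FiniteDimensional (ZMod p) I]
  [FiniteDimensional (ZMod p) I'] [FiniteDimensional (ZMod p) Q] [FiniteDimensional (ZMod p) Q']
  {ρ : Representation (ZMod p) GG A} {ρ' : Representation (ZMod p) GG A'}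
  {β : Representation (ZMod p) GG I} {β' : Representation (ZMod p) GG I'}
  {κ : Representation (ZMod p) GG Q} {κ' : Representation (ZMod p) GG Q'}
  {P : DualPair ρ ρ'} {PI : DualPair β β'} {PQ : DualPair κ κ'}

theorem finite_of_le {M : Type} [AddCommGroup M] [Module (ZMod p) M]
    {X Y : Submodule (ZMod p) M} [FiniteDimensional (ZMod p) Y] (h : X ≤ Y) :
    FiniteDimensional (ZMod p) X :=
  Submodule.finiteDimensional_of_le h

variable (S V) in
/-- The classes of the cokernel which lift at every place. -/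
def locLift (f : I →ₗ[ZMod p] Q) (β : Representation (ZMod p) GG I)
    (κ : Representation (ZMod p) GG Q) : Submodule (ZMod p) (GG → Q) :=
  Z1S κ idG S ⊓ ⨅ q ∈ S,
    ((Z1 β (Dec (V q)).subtype).map (push1 f)).comap (res1 (p := p) (Dec (V q)).subtype)

theorem mem_locLift {f : I →ₗ[ZMod p] Q} {c : GG → Q} :
    c ∈ locLift S V f β κ ↔ c ∈ Z1S κ idG S ∧ ∀ q ∈ S, res1 (p := p) (Dec (V q)).subtype c ∈
      (Z1 β (Dec (V q)).subtype).map (push1 f) := by
  simp [locLift, Submodule.mem_iInf]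

theorem locLift_le {f : I →ₗ[ZMod p] Q} : locLift S V f β κ ≤ Z1S κ idG S := inf_le_left

theorem DSeq.map_quot_le (s : DSeq P PI PQ) :
    (Z1S β idG S).map (push1 s.quot) ≤ locLift S V s.quot β κ := by
  rintro _ ⟨w, hw, rfl⟩
  exact mem_locLift.2 ⟨push1_mem_Z1S s.quot_equivar hw, fun q _ => ⟨_,
    res1_sub_mem_Z1 (Dec (V q)) hw.1, rfl⟩⟩

theorem DSeq.sha_le_locLift (s : DSeq P PI PQ) (hβ : F.Triv β) :
    Sha1 κ S V ≤ locLift S V s.quot β κ := fun c hc => by
  obtain ⟨h1, h2⟩ := (mem_sha1 V).1 hc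
  refine mem_locLift.2 ⟨h1, fun q hq => ?_⟩
  obtain ⟨x, hx⟩ := h2 q hq
  obtain ⟨i, rfl⟩ := s.quot_surj x
  exact ⟨d0 β (Dec (V q)).subtype i, d0_mem_Z1 hβ.smooth i, (push1_d0 s.quot_equivar i).trans hx⟩

/-- The pairs of a class and a cochain trivialising its image. -/
def extLifts (f : A →ₗ[ZMod p] I) (ρ : Representation (ZMod p) GG A)
    (β : Representation (ZMod p) GG I) (S : Finset Nat.Primes) (V : Nat.Primes → VS) :
    Submodule (ZMod p) (↥(Sha2 ρ S V) × ↥(C1S (p := p) (A := I) idG S)) :=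
  LinearMap.eqLocus (push2 f ∘ₗ (Sha2 ρ S V).subtype ∘ₗ LinearMap.fst (ZMod p) _ _)
    (d1 β idG ∘ₗ (C1S (p := p) (A := I) idG S).subtype ∘ₗ LinearMap.snd (ZMod p) _ _)

/-- The classes dying in the coinduced module are quotients of the lifting classes. -/
theorem DSeq.ker_le_locLift (s : DSeq P PI PQ)
    [FiniteDimensional (ZMod p) ↥(locLift S V s.quot β κ)]
    (T : SH (Sha2 ρ S V) (B2S ρ idG S) →ₗ[ZMod p] SH (Sha2 β S V) (B2S β idG S))
    (hT : ∀ x : ↥(Sha2 ρ S V), ∃ h : push2 s.incl x.1 ∈ Sha2 β S V,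
      T (Submodule.Quotient.mk x) = Submodule.Quotient.mk ⟨_, h⟩) :
    FiniteDimensional (ZMod p) (LinearMap.ker T) ∧
      Module.finrank (ZMod p) (LinearMap.ker T) +
          Module.finrank (ZMod p) ↥((Z1S β idG S).map (push1 s.quot)) ≤
        Module.finrank (ZMod p) ↥(locLift S V s.quot β κ) := by
  classical
  set Aset := locLift S V s.quot β κ with hA
  set M0 := (Z1S β idG S).map (push1 s.quot) with hM0
  have hM0A : M0 ≤ Aset := s.map_quot_le
  have hAset : ∀ c, c ∈ Aset ↔ c ∈ Z1S κ idG S ∧ ∀ q ∈ S, res1 (p := p) (Dec (V q)).subtype c ∈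
      (Z1 β (Dec (V q)).subtype).map (push1 s.quot) := fun c => mem_locLift
  let W := extLifts s.incl ρ β S V
  have hW : ∀ w : ↥W, push2 s.incl (w.1.1 : GG → GG → A) = d1 β idG (w.1.2 : GG → I) :=
    fun w => w.2
  have hq : ∀ w : ↥W, push1 s.quot (w.1.2 : GG → I) ∈ Aset := fun w => by
    have hw := hW w
    obtain ⟨hx2, hxl⟩ := (mem_sha2 V).1 w.1.1.2
    refine (hAset _).2 ⟨⟨⟨push1_mem_C1 s.quot (C1S_le_C1 S w.1.2.2), fun g h => ?_⟩,
      push1_mem_C1S s.quot w.1.2.2⟩, fun q hq => ?_⟩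
    · have h1 := congrArg s.quot (congrFun (congrFun hw g) h)
      rw [push2_apply, s.quot_incl, d1_apply, map_add, map_sub, s.quot_equivar] at h1
      simp only [push1_apply, MonoidHom.id_apply] at h1 ⊢
      rw [eq_comm, sub_add_eq_add_sub, sub_eq_zero] at h1
      rw [← h1, add_comm]
    · obtain ⟨v, hv, hvx⟩ := hxl q hq
      refine ⟨res1 (p := p) (Dec (V q)).subtype (w.1.2 : GG → I) - push1 s.incl v,
        ⟨sub_mem ?_ (push1_mem_C1 s.incl hv), fun g h => ?_⟩, ?_⟩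
      · obtain ⟨E, hE, hl⟩ := C1S_le_C1 S w.1.2.2
        exact ⟨E, hE, fun g s hs => hl (g : GG) s hs⟩
      · have h1 := congrFun (congrFun hw (g : GG)) (h : GG)
        have h2 := congrArg s.incl (congrFun (congrFun hvx g) h)
        simp only [res2_apply, d1_apply, map_add, map_sub, s.incl_equivar _ _, push2_apply,
          MonoidHom.id_apply, Subgroup.coe_subtype, ← Subgroup.coe_mul] at h1 h2
        simp only [Pi.sub_apply, res1_apply, push1_apply, map_sub, Subgroup.coe_subtype]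
        rw [← sub_eq_zero]
        linear_combination (norm := abel) h1 + h2
      · funext g
        simp [push1_apply, res1_apply, s.quot_incl]
  let g : ↥W →ₗ[ZMod p] LinearMap.ker T :=
    LinearMap.codRestrict _ ((Submodule.mkQ _) ∘ₗ LinearMap.fst (ZMod p) _ _ ∘ₗ W.subtype)
      fun w => by
        obtain ⟨h, e⟩ := hT w.1.1
        show T (Submodule.Quotient.mk w.1.1) = 0
        rw [e, sh_mk_eq_zero]
        exact ⟨_, w.1.2.2, (hW w).symm⟩
  let f : ↥W →ₗ[ZMod p] SH Aset M0 :=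
    (Submodule.mkQ _) ∘ₗ LinearMap.codRestrict Aset
      (push1 s.quot ∘ₗ (C1S (p := p) (A := I) idG S).subtype ∘ₗ LinearMap.snd (ZMod p) _ _ ∘ₗ
        W.subtype) hq
  have hg : Function.Surjective g := fun ⟨x, hx⟩ => by
    obtain ⟨x, rfl⟩ := Submodule.Quotient.mk_surjective _ x
    obtain ⟨h, e⟩ := hT x
    obtain ⟨u, hu, hud⟩ := (sh_mk_eq_zero h).1 (e.symm.trans (LinearMap.mem_ker.1 hx))
    exact ⟨⟨(x, ⟨u, hu⟩), hud.symm⟩, rfl⟩
  have hker : LinearMap.ker f ≤ LinearMap.ker g := fun w hw => by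
    obtain ⟨a, ha, hau⟩ := (sh_mk_eq_zero (hq w)).1 hw
    refine Subtype.ext ((sh_mk_eq_zero w.1.1.2).2 ?_)
    obtain ⟨inv, hinv⟩ := s.incl.exists_leftInverse_of_injective (LinearMap.ker_eq_bot.2 s.incl_inj)
    refine ⟨push1 inv ((w.1.2 : GG → I) - a), push1_mem_C1S inv (sub_mem w.1.2.2 ha.2), ?_⟩
    have hback : push1 s.incl (push1 inv ((w.1.2 : GG → I) - a)) = (w.1.2 : GG → I) - a := by
      funext σ
      obtain ⟨m, hm⟩ := s.exact (((w.1.2 : GG → I) - a) σ) (by
        rw [Pi.sub_apply, map_sub, sub_eq_zero]; exact (congrFun hau σ).symm)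
      rw [push1_apply, push1_apply, ← hm, ← LinearMap.comp_apply inv, hinv, LinearMap.id_apply]
    funext σ τ
    refine s.incl_inj ?_
    rw [← push2_apply s.incl, push2_d1 s.incl_equivar, hback, map_sub, ← hW w,
      show d1 β idG a = 0 from funext fun _ => funext fun _ => by
        rw [d1_apply, ha.1.2]; simp, sub_zero, push2_apply]
  obtain ⟨hfin, hle⟩ := finite_of_rel f g hg hker
  refine ⟨hfin, ?_⟩
  rw [← finrank_SH Aset M0 hM0A]
  exact Nat.add_le_add_right (hle.trans (Submodule.finrank_le _)) _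

/-- The local lifts of the global classes. -/
def localLifts (f : I →ₗ[ZMod p] Q) (β : Representation (ZMod p) GG I)
    (Aset : Submodule (ZMod p) (GG → Q)) (S : Finset Nat.Primes) (V : Nat.Primes → VS) :
    Submodule (ZMod p) (↥Aset × LocZ1 β S V) :=
  ⨅ q : ↥S, LinearMap.eqLocus
    (push1 f ∘ₗ (Z1 β (Dec (V q)).subtype).subtype ∘ₗ LinearMap.proj q ∘ₗ
      LinearMap.snd (ZMod p) _ _)
    (res1 (p := p) (Dec (V q)).subtype ∘ₗ Aset.subtype ∘ₗ LinearMap.fst (ZMod p) _ _)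

/-- The classes modulo the locally trivial ones. -/
theorem DSeq.locLift_le_of_middle (s : DSeq P PI PQ) (hp2 : p ≠ 2)
    (hpS : ExtCitation.pPrime p ∈ S) (hV : ∀ q, (V q).LiesOverPrime (q : ℕ))
    (hβ : F.Triv β) (hβ' : F.Triv β') (hκ' : F.Triv κ') (hI : CoindFacts PI S V)
    (hdual : ∀ q ∈ S, ∀ b ∈ Z1 ρ' (Dec (V q)).subtype,
      (∀ a ∈ Z1 ρ (Dec (V q)).subtype,
        invL p (V q) (Dec (V q)) (cup (Dec (V q)).subtype P.e ρ' a b) = 0) →
      b ∈ B1 ρ' (Dec (V q)).subtype)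
    [FiniteDimensional (ZMod p) ↥(Z1S ρ' idG S)] [FiniteDimensional (ZMod p) ↥(Z1S β' idG S)]
    [FiniteDimensional (ZMod p) ↥(Z1S κ idG S)] :
    Module.finrank (ZMod p) ↥(locLift S V s.quot β κ) +
        Module.finrank (ZMod p) ↥((Sha1 β' S V).map (push1 s.proj)) ≤
      Module.finrank (ZMod p) ↥(Sha1 κ S V ⊔ (Z1S β idG S).map (push1 s.quot)) +
        Module.finrank (ZMod p) ↥(Sha1 ρ' S V ⊓ (Z1S β' idG S).map (push1 s.proj)) := by
  classical
  set Aset := locLift S V s.quot β κ with hA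
  set M0 := (Z1S β idG S).map (push1 s.quot) with hM0
  have hM0A : M0 ≤ Aset := s.map_quot_le
  have hShaA : Sha1 κ S V ≤ Aset := s.sha_le_locLift hβ
  have hAset : ∀ c, c ∈ Aset ↔ c ∈ Z1S κ idG S ∧ ∀ q ∈ S, res1 (p := p) (Dec (V q)).subtype c ∈
      (Z1 β (Dec (V q)).subtype).map (push1 s.quot) := fun c => mem_locLift
  haveI : FiniteDimensional (ZMod p) Aset := finite_of_le locLift_le
  haveI : FiniteDimensional (ZMod p) ↥(Sha1 κ S V) := finite_of_le sha1_le_Z1S
  haveI : FiniteDimensional (ZMod p) ↥(Sha1 ρ' S V) := finite_of_le sha1_le_Z1S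
  haveI : FiniteDimensional (ZMod p) ↥(Sha1 β' S V) := finite_of_le sha1_le_Z1S
  let J : Submodule (ZMod p) (GG → I') :=
    Z1S β' idG S ⊓ (Sha1 ρ' S V).comap (push1 s.proj)
  haveI : FiniteDimensional (ZMod p) J := finite_of_le (inf_le_left : J ≤ Z1S β' idG S)
  have hJle : J ≤ Z1 β' idG := inf_le_left.trans inf_le_left
  set resJ := resAll V S J hJle with hresJ
  set Φ := locSum hp2 hV hβ'.smooth PI S with hΦdef
  have hΦ : ∀ (w : LocZ1 β S V) (b : LocZ1 β' S V), Φ w b = ∑ q : ↥S, invL p (V q) (Dec (V q))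
      (cup (Dec (V q)).subtype PI.e β' (w q).1 (b q).1) := fun w b => locSum_apply hp2 hV _ PI w b
  let W2 := localLifts s.quot β Aset S V
  have hW2 : ∀ w : ↥W2, ∀ q : ↥S, push1 s.quot (w.1.2 q).1 =
      res1 (p := p) (Dec (V q)).subtype (w.1.1 : GG → Q) := fun w q =>
    (Submodule.mem_iInf _).1 w.2 q
  let f2 : ↥W2 →ₗ[ZMod p] Module.Dual (ZMod p) ↥J :=
    resJ.dualMap ∘ₗ Φ ∘ₗ LinearMap.snd (ZMod p) _ _ ∘ₗ W2.subtype
  let g2 : ↥W2 →ₗ[ZMod p] SH Aset (Sha1 κ S V ⊔ M0) :=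
    (Submodule.mkQ _) ∘ₗ LinearMap.fst (ZMod p) _ _ ∘ₗ W2.subtype
  have hg2 : Function.Surjective g2 := fun x => by
    obtain ⟨c, rfl⟩ := Submodule.Quotient.mk_surjective _ x
    choose w hw hwe using fun q : ↥S => ((hAset _).1 c.2).2 q q.2
    exact ⟨⟨(c, fun q => ⟨w q, hw q⟩), (Submodule.mem_iInf _).2 fun q => hwe q⟩, rfl⟩
  have hker2 : LinearMap.ker f2 ≤ LinearMap.ker g2 := by
    intro w hw
    refine (sh_mk_eq_zero w.1.1.2).2 ?_
    obtain ⟨a, ha, hloc⟩ := s.exists_of_orth hp2 hV hβ' hI hdual J hJle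
      (fun b hb hb' => ⟨hb, hb'⟩) w.1.2 fun b => LinearMap.congr_fun (LinearMap.mem_ker.1 hw) b
    refine Submodule.mem_sup.2 ⟨(w.1.1 : GG → Q) - push1 s.quot a, (mem_sha1 V).2
      ⟨sub_mem ((hAset _).1 w.1.1.2).1 (push1_mem_Z1S s.quot_equivar ha), fun q hq => ?_⟩,
      _, ⟨a, ha, rfl⟩, sub_add_cancel _ _⟩
    obtain ⟨y, ⟨α, hα, rfl⟩, z, hz, hyz⟩ := Submodule.mem_sup.1 (hloc ⟨q, hq⟩)
    have e : res1 (p := p) (Dec (V q)).subtype ((w.1.1 : GG → Q) - push1 s.quot a) =
        push1 s.quot z := by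
      rw [map_sub, ← hW2 w ⟨q, hq⟩, res1_push1, ← map_sub, ← hyz, map_add,
        show push1 s.quot (push1 s.incl α) = 0 from funext fun g => by
          simp [push1_apply, s.quot_incl], zero_add]
    rw [e]
    exact push1_mem_B1 s.quot_equivar hz
  obtain ⟨-, hle⟩ := finite_of_rel f2 g2 hg2 hker2
  -- the functionals kill the locally trivial classes and those of the dual cokernel
  let K2 : Submodule (ZMod p) ↥J :=
    (Sha1 β' S V ⊔ (Z1S κ' idG S).map (push1 s.incl')).comap J.subtype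
  have hrange : LinearMap.range f2 ≤ K2.dualAnnihilator := by
    rintro _ ⟨w, rfl⟩
    rw [Submodule.mem_dualAnnihilator]
    intro b hb
    obtain ⟨t, ht, _, ⟨b', hb', rfl⟩, hsum⟩ := Submodule.mem_sup.1 hb
    show Φ w.1.2 (resJ b) = 0
    rw [hΦ]
    have e : ∀ q : ↥S, invL p (V q) (Dec (V q))
        (cup (Dec (V q)).subtype PI.e β' (w.1.2 q).1 (resJ b q).1) =
        invL p (V q) (Dec (V q)) (res2 (p := p) (Dec (V q)).subtype
          (cup idG PQ.e κ' (w.1.1 : GG → Q) b')) := by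
      intro q
      have htq := ((mem_sha1 V).1 ht).2 q q.2
      have e1 : (resJ b q).1 = res1 (p := p) (Dec (V q)).subtype t +
          push1 s.incl' (res1 (p := p) (Dec (V q)).subtype b') := by
        show res1 (p := p) (Dec (V q)).subtype (b : GG → I') = _
        rw [← res1_push1, ← map_add, hsum]
        rfl
      rw [e1, ← cupLin_apply, map_add, cupLin_apply, cupLin_apply]
      have hz : push1 s.incl' (res1 (p := p) (Dec (V q)).subtype b') ∈
          Z1 β' (Dec (V q)).subtype :=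
        push1_mem_Z1 s.incl'_equivar (res1_sub_mem_Z1 _ hb'.1)
      rw [invL_add hp2 (q : Nat.Primes).2 (hV q) localSub_self
        (cup_mem_Z2 PI hβ'.smooth (w.1.2 q).2 (B1_le_Z1 hβ'.smooth htq))
        (cup_mem_Z2 PI hβ'.smooth (w.1.2 q).2 hz),
        invL_B2 hp2 (q : Nat.Primes).2 (hV q) localSub_self
          (cup_mem_B2_right PI hβ'.smooth (w.1.2 q).2 htq), zero_add]
      congr 1
      funext σ τ
      simp only [cup, res2_apply, push1_apply, res1_apply, ← s.incl'_equivar _ _, s.adj',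
        MonoidHom.id_apply]
      congr 2
      exact congrFun (hW2 w q) σ
    rw [Finset.sum_congr rfl fun q _ => e q]
    refine (Finset.sum_coe_sort S fun q => invL p (V q) (Dec (V q))
      (res2 (p := p) (Dec (V q)).subtype (cup idG PQ.e κ' (w.1.1 : GG → Q) b'))).trans ?_
    exact invL_sum hp2 S hpS V hV
      (cup_mem_Z2S PQ ⟨F.K, F.unram, hκ'⟩ ((hAset _).1 w.1.1.2).1 hb')
  set X := Sha1 ρ' S V ⊓ (Z1S β' idG S).map (push1 s.proj) with hX
  haveI : FiniteDimensional (ZMod p) X := finite_of_le (inf_le_left : X ≤ Sha1 ρ' S V)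
  set C := (Sha1 β' S V).map (push1 s.proj) with hC
  have hCX : C ≤ X := by
    rintro _ ⟨t, ht, rfl⟩
    exact ⟨push1_mem_sha1 s.proj_equivar ht, ⟨t, sha1_le_Z1S ht, rfl⟩⟩
  let g3 : ↥J →ₗ[ZMod p] SH X C := (Submodule.mkQ _) ∘ₗ LinearMap.codRestrict X
    (push1 s.proj ∘ₗ J.subtype) fun b => ⟨b.2.2, ⟨b, b.2.1, rfl⟩⟩
  have hker3 : LinearMap.ker g3 ≤ K2 := fun b hb => by
    obtain ⟨t, ht, hte⟩ := (sh_mk_eq_zero _).1 hb
    refine Submodule.mem_sup.2 ⟨t, ht, (b : GG → I') - t, ?_, add_sub_cancel _ _⟩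
    obtain ⟨inv, hinv⟩ :=
      s.incl'.exists_leftInverse_of_injective (LinearMap.ker_eq_bot.2 s.incl'_inj)
    have hz : (b : GG → I') - t ∈ Z1S β' idG S := sub_mem b.2.1 (sha1_le_Z1S ht)
    have hback : push1 s.incl' (push1 inv ((b : GG → I') - t)) = (b : GG → I') - t := by
      funext σ
      obtain ⟨m, hm⟩ := s.exact' (((b : GG → I') - t) σ) (by
        rw [Pi.sub_apply, map_sub, sub_eq_zero]; exact (congrFun hte σ).symm)
      rw [push1_apply, push1_apply, ← hm, ← LinearMap.comp_apply inv, hinv, LinearMap.id_apply]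
    refine ⟨_, ⟨⟨push1_mem_C1 inv hz.1.1, fun σ τ => s.incl'_inj ?_⟩, push1_mem_C1S inv hz.2⟩,
      hback⟩
    rw [map_add, s.incl'_equivar, ← push1_apply s.incl', ← push1_apply s.incl',
      ← push1_apply s.incl', hback]
    exact hz.1.2 σ τ
  have h1 : Module.finrank (ZMod p) (SH Aset (Sha1 κ S V ⊔ M0)) +
      Module.finrank (ZMod p) K2 ≤ Module.finrank (ZMod p) ↥J := by
    rw [← Subspace.finrank_add_finrank_dualAnnihilator_eq K2, add_comm]
    exact Nat.add_le_add_left (hle.trans (Submodule.finrank_mono hrange)) _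
  have h2 : Module.finrank (ZMod p) ↥J ≤
      Module.finrank (ZMod p) (SH X C) + Module.finrank (ZMod p) K2 := by
    rw [← LinearMap.finrank_range_add_finrank_ker g3]
    exact Nat.add_le_add (Submodule.finrank_le _) (Submodule.finrank_mono hker3)
  have h3 := finrank_SH Aset (Sha1 κ S V ⊔ M0) (sup_le hShaA hM0A)
  have h4 := finrank_SH X C hCX
  omega

/-- The classes which die in the coinduced module come from the cokernel. -/
theorem DSeq.kernel_bound (s : DSeq P PI PQ) (hp2 : p ≠ 2) (hpS : ExtCitation.pPrime p ∈ S)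
    (hV : ∀ q, (V q).LiesOverPrime (q : ℕ))
    (hβ : F.Triv β) (hβ' : F.Triv β') (hκ' : F.Triv κ') (hI : CoindFacts PI S V)
    (hdual : ∀ q ∈ S, ∀ b ∈ Z1 ρ' (Dec (V q)).subtype,
      (∀ a ∈ Z1 ρ (Dec (V q)).subtype,
        invL p (V q) (Dec (V q)) (cup (Dec (V q)).subtype P.e ρ' a b) = 0) →
      b ∈ B1 ρ' (Dec (V q)).subtype)
    [FiniteDimensional (ZMod p) ↥(Z1S ρ' idG S)] [FiniteDimensional (ZMod p) ↥(Z1S β' idG S)]
    [FiniteDimensional (ZMod p) ↥(Z1S κ idG S)]
    (T : SH (Sha2 ρ S V) (B2S ρ idG S) →ₗ[ZMod p] SH (Sha2 β S V) (B2S β idG S))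
    (hT : ∀ x : ↥(Sha2 ρ S V), ∃ h : push2 s.incl x.1 ∈ Sha2 β S V,
      T (Submodule.Quotient.mk x) = Submodule.Quotient.mk ⟨_, h⟩) :
    FiniteDimensional (ZMod p) (LinearMap.ker T) ∧
      Module.finrank (ZMod p) (LinearMap.ker T) +
          Module.finrank (ZMod p) ↥(Sha1 κ S V ⊓ (Z1S β idG S).map (push1 s.quot)) +
          Module.finrank (ZMod p) ↥((Sha1 β' S V).map (push1 s.proj)) ≤
        Module.finrank (ZMod p) ↥(Sha1 κ S V) +
          Module.finrank (ZMod p) ↥(Sha1 ρ' S V ⊓ (Z1S β' idG S).map (push1 s.proj)) := by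
  haveI : FiniteDimensional (ZMod p) ↥(locLift S V s.quot β κ) := finite_of_le locLift_le
  haveI : FiniteDimensional (ZMod p) ↥(Sha1 κ S V) := finite_of_le sha1_le_Z1S
  haveI : FiniteDimensional (ZMod p) ↥((Z1S β idG S).map (push1 s.quot)) :=
    finite_of_le (s.map_quot_le (V := V))
  obtain ⟨hfin, h1⟩ := s.ker_le_locLift T hT
  have h2 := s.locLift_le_of_middle hp2 hpS hV hβ hβ' hκ' hI hdual
  have h5 := Submodule.finrank_sup_add_finrank_inf_eq (Sha1 κ S V)
    ((Z1S β idG S).map (push1 s.quot))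
  exact ⟨hfin, by omega⟩

end FLTAgent.PoitouTate
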