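import Fermat.Agent.Lowering.P1.Brauer.Place
import Fermat.Prelude.Def_ExtEndgame_ProductionDatum

/-!
# The local Galois group is dense in the decomposition group of its place
-/

set_option autoImplicit false
set_option linter.style.haveILetI false

noncomputable section

open scoped Pointwise NNReal

namespace FLTAgent.PoitouTate

open FLTAgent.Lowering.P1 FLTAgent.Lowering.P1.Brauer

local notation "LL" => AlgebraicClosure ℚ
local notation "GG" => (AlgebraicClosure ℚ ≃ₐ[ℚ] AlgebraicClosure ℚ)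
local notation "Dec" => ValuationSubring.decompositionSubgroup ℚ

variable (q : ℕ) [Fact q.Prime]

theorem nnnorm_smul_le {σ : GG} (hσ : σ ∈ Dec (padicPlace q)) (z : LL) (k : ℕ)
    (hz : ‖padicEmbedding q z‖ ≤ (q : ℝ)⁻¹ ^ k) :
    ‖padicEmbedding q (σ z)‖ ≤ (q : ℝ)⁻¹ ^ k := by
  have hq : (0 : ℝ) < q := Nat.cast_pos.2 (Fact.out : q.Prime).pos
  have hnq : ‖(q : PadicAlgCl q)‖ = (q : ℝ)⁻¹ := by
    rw [show (q : PadicAlgCl q) = algebraMap ℚ_[q] (PadicAlgCl q) q from (map_natCast _ q).symm,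
      PadicAlgCl.norm_extends, Padic.norm_p]
  have hne : (q : LL) ^ k ≠ 0 := pow_ne_zero _ (Nat.cast_ne_zero.2 (Fact.out : q.Prime).ne_zero)
  have hnk : ∀ w : LL, ‖padicEmbedding q (w / (q : LL) ^ k)‖ =
      ‖padicEmbedding q w‖ / (q : ℝ)⁻¹ ^ k := fun w => by
    rw [map_div₀, map_pow, map_natCast, norm_div, norm_pow, hnq]
  have hmem : z / (q : LL) ^ k ∈ padicPlace q := by
    rw [mem_padicPlace_iff, ← NNReal.coe_le_coe, NNReal.coe_one, coe_nnnorm, hnk]
    exact (div_le_one (pow_pos (inv_pos.2 hq) _)).2 hz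
  have h2 : σ (z / (q : LL) ^ k) ∈ padicPlace q := by
    have h := MulAction.mem_stabilizer_iff.1 hσ
    rw [← h]
    exact ValuationSubring.smul_mem_pointwise_smul σ _ _ hmem
  rw [mem_padicPlace_iff, ← NNReal.coe_le_coe, NNReal.coe_one, coe_nnnorm, map_div₀, map_pow,
    map_natCast, hnk] at h2
  exact (div_le_one (pow_pos (inv_pos.2 hq) _)).1 h2

theorem apply_eq_of_fixed {σ : GG} (hσ : σ ∈ Dec (padicPlace q)) {x : LL}
    (hx : ∀ τ : PadicAlgCl q ≃ₐ[ℚ_[q]] PadicAlgCl q, localGaloisToGlobal q τ x = x) : σ x = x := by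
  haveI : IsGalois ℚ_[q] (PadicAlgCl q) := {}
  obtain ⟨c, hc⟩ := (InfiniteGalois.mem_range_algebraMap_iff_fixed (padicEmbedding q x)).2
    fun τ => by rw [← padicEmbedding_localGaloisToGlobal, hx τ]
  have hq : (1 : ℝ) < q := Nat.one_lt_cast.2 (Fact.out : q.Prime).one_lt
  have hbound : ∀ k : ℕ, ‖padicEmbedding q (σ x) - padicEmbedding q x‖ ≤ (q : ℝ)⁻¹ ^ k := by
    intro k
    obtain ⟨r, hr⟩ := Padic.rat_dense q c
      (ε := (q : ℝ)⁻¹ ^ k) (pow_pos (inv_pos.2 (zero_lt_one.trans hq)) k)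
    have hz : ‖padicEmbedding q (x - (r : LL))‖ ≤ (q : ℝ)⁻¹ ^ k := by
      rw [map_sub, map_ratCast, ← hc,
        show (r : PadicAlgCl q) = algebraMap ℚ_[q] (PadicAlgCl q) r from (map_ratCast _ r).symm,
        ← map_sub, PadicAlgCl.norm_extends]
      exact hr.le
    have hσz := nnnorm_smul_le q hσ _ k hz
    have e : padicEmbedding q (σ x) - padicEmbedding q x =
        padicEmbedding q (σ (x - (r : LL))) - padicEmbedding q (x - (r : LL)) := by
      rw [map_sub σ, map_ratCast σ, map_sub, map_sub (padicEmbedding q) x]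
      ring
    rw [e, sub_eq_add_neg]
    refine (IsUltrametricDist.norm_add_le_max _ _).trans (max_le hσz ?_)
    rwa [norm_neg]
  refine (padicEmbedding q).toRingHom.injective (sub_eq_zero.1 (norm_le_zero_iff.1 ?_))
  refine ge_of_tendsto' (tendsto_pow_atTop_nhds_zero_of_lt_one (by positivity)
    (inv_lt_one_of_one_lt₀ hq)) hbound

/-- Every element of the decomposition group agrees on a number field with a local one. -/
theorem exists_local_approx {σ : GG} (hσ : σ ∈ Dec (padicPlace q)) (F : IntermediateField ℚ LL)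
    [FiniteDimensional ℚ F] [Normal ℚ F] :
    ∃ τ, (localGaloisToGlobal q τ)⁻¹ * σ ∈ F.fixingSubgroup := by
  obtain ⟨L, hL, hLeq⟩ := exists_field_of_sup (localGaloisToGlobal q).range F
  have hσL : σ ∈ galOf L := by
    show σ ∈ L.fixingSubgroup
    rw [IntermediateField.mem_fixingSubgroup_iff]
    intro x hx
    refine apply_eq_of_fixed q hσ fun τ => ?_
    have hτ : localGaloisToGlobal q τ ∈ L.fixingSubgroup :=
      show _ ∈ galOf L from hLeq ▸ Subgroup.mem_sup_left ⟨τ, rfl⟩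
    exact (IntermediateField.mem_fixingSubgroup_iff _ _).1 hτ x hx
  haveI : F.fixingSubgroup.Normal := Brauer.fix_normal F
  rw [hLeq, Subgroup.mem_sup_of_normal_right] at hσL
  obtain ⟨a, ⟨τ, rfl⟩, b, hb, rfl⟩ := hσL
  exact ⟨τ, by rwa [inv_mul_cancel_left]⟩

end FLTAgent.PoitouTate
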