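import Fermat.Agent.PoitouTate.Sha.Basic
import Fermat.Agent.PoitouTate.Sha.Dense

/-!
# The groups of the statement in terms of cochains at the chosen places
-/

set_option autoImplicit false
set_option linter.style.haveILetI false
set_option linter.unusedSectionVars false
set_option maxHeartbeats 1000000

noncomputable section

open CategoryTheory
open scoped Pointwise

namespace FLTAgent.PoitouTate

open FLTAgent.Lowering.P1 FLTAgent.Lowering.P1.Brauer groupCohomology ExtCitation

local notation "LL" => AlgebraicClosure ℚ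
local notation "GG" => (AlgebraicClosure ℚ ≃ₐ[ℚ] AlgebraicClosure ℚ)
local notation "VS" => ValuationSubring (AlgebraicClosure ℚ)
local notation "Dec" => ValuationSubring.decompositionSubgroup ℚ
local notation "idG" => MonoidHom.id (AlgebraicClosure ℚ ≃ₐ[ℚ] AlgebraicClosure ℚ)

variable {p : ℕ} [Fact p.Prime] {S : Finset Nat.Primes}

/-- The places of the localisations. -/
abbrev stdPlace : Nat.Primes → VS := fun q => primeLocalPlace q

theorem stdPlace_lies (q : Nat.Primes) : (stdPlace q).LiesOverPrime (q : ℕ) := by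
  letI : Fact (q : ℕ).Prime := ⟨q.2⟩
  refine (ValuationSubring.mem_nonunits_iff_exists_mem_maximalIdeal).2 ?_
  have hmem : ((q : ℕ) : LL) ∈ padicPlace (q : ℕ) := natCast_mem _ _
  refine ⟨hmem, ?_⟩
  rw [IsLocalRing.mem_maximalIdeal]
  intro hu
  obtain ⟨w, hw⟩ := hu.exists_right_inv
  have h1 := congrArg (fun x : padicPlace (q : ℕ) => ‖padicEmbedding (q : ℕ) (x : LL)‖) hw
  have h2 : ‖padicEmbedding (q : ℕ) (w : LL)‖ ≤ 1 := by
    rw [← coe_nnnorm, ← NNReal.coe_one, NNReal.coe_le_coe, ← mem_padicPlace_iff]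
    exact w.2
  simp only [MulMemClass.coe_mul, OneMemClass.coe_one, map_mul, map_one, map_natCast, norm_mul,
    norm_one] at h1
  have h3 : ‖((q : ℕ) : PadicAlgCl (q : ℕ))‖ < 1 := by
    rw [show ((q : ℕ) : PadicAlgCl (q : ℕ)) = algebraMap ℚ_[(q : ℕ)] (PadicAlgCl (q : ℕ)) (q : ℕ)
      from (map_natCast _ _).symm, PadicAlgCl.norm_extends]
    exact Padic.norm_p_lt_one
  nlinarith [norm_nonneg (padicEmbedding (q : ℕ) (w : LL)),
    norm_nonneg ((q : ℕ) : PadicAlgCl (q : ℕ))]

theorem localMap_mem (q : Nat.Primes) (τ : primeLocalGaloisGroup q) :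
    primeLocalToGlobal q τ ∈ Dec (stdPlace q) :=
  letI : Fact (q : ℕ).Prime := ⟨q.2⟩
  localGaloisToGlobal_mem_decompositionSubgroup (q : ℕ) τ

theorem localMap_approx (q : Nat.Primes) {σ : GG} (hσ : σ ∈ Dec (stdPlace q))
    (F : IntermediateField ℚ LL) [FiniteDimensional ℚ F] [Normal ℚ F] :
    ∃ τ : primeLocalGaloisGroup q, (primeLocalToGlobal q τ)⁻¹ * σ ∈ F.fixingSubgroup :=
  letI : Fact (q : ℕ).Prime := ⟨q.2⟩
  exists_local_approx (q : ℕ) hσ F

variable (M : Rep (ZMod p) GG)

/-- The cocycle of the statement attached to a cochain. -/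
def sha1ToH1 : ↥(Sha1 M.ρ S stdPlace) →ₗ[ZMod p] H1 M :=
  (H1π M).hom ∘ₗ LinearMap.codRestrict (cocycles₁ M) (Sha1 M.ρ S stdPlace).subtype fun c => by
    rw [mem_cocycles₁_iff]
    intro g h
    have h1 := ((mem_sha1 stdPlace).1 c.2).1.1.2 g h
    show (c : GG → M) (g * h) = M.ρ g ((c : GG → M) h) + (c : GG → M) g
    rw [h1, add_comm]
    rfl

theorem sha1ToH1_apply (c : ↥(Sha1 M.ρ S stdPlace)) :
    ∃ h : (c : GG → M) ∈ cocycles₁ M, sha1ToH1 M c = (H1π M).hom ⟨c, h⟩ := ⟨_, rfl⟩

theorem ker_sha1ToH1 :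
    LinearMap.ker (sha1ToH1 (S := S) M) =
      (B1 M.ρ idG).comap (Sha1 M.ρ S stdPlace).subtype := by
  ext c
  obtain ⟨h, e⟩ := sha1ToH1_apply M c
  rw [LinearMap.mem_ker, e, H1π_eq_zero_iff, Submodule.mem_comap]
  exact Iff.rfl

/-- The archimedean group has odd order prime to `p`. -/
theorem card_arch (hp2 : p ≠ 2) :
    Finite ↥archimedeanDecomposition ∧
      ((Nat.card ↥archimedeanDecomposition : ℕ) : ZMod p) ≠ 0 := by
  have h : orderOf complexConjugation ∣ 2 := orderOf_dvd_of_pow_eq_one complexConjugation_sq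
  have hpos : 0 < orderOf complexConjugation := Nat.pos_of_dvd_of_pos h two_pos
  have hcard : Nat.card ↥archimedeanDecomposition = orderOf complexConjugation :=
    Nat.card_zpowers _
  refine ⟨Nat.finite_of_card_ne_zero (by omega), fun h0 => ?_⟩
  rw [hcard, ZMod.natCast_eq_zero_iff] at h0
  exact hp2 ((Nat.prime_dvd_prime_iff_eq Fact.out Nat.prime_two).1 (h0.trans h))

section Finite

variable {M} {G : Type} [Group G] [Finite G] (ι : G →* GG)
  (hG : ((Nat.card G : ℕ) : ZMod p) ≠ 0)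

include hG in
theorem exists_d0_of_card {c : G → M} (hc : ∀ g h, c (g * h) = M.ρ (ι g) (c h) + c g) :
    ∃ a : M, ∀ g, M.ρ (ι g) a - a = c g := by
  haveI := Fintype.ofFinite G
  refine ⟨-((Nat.card G : ZMod p)⁻¹ • ∑ h, c h), fun g => ?_⟩
  have hsum : ∑ h, c h = M.ρ (ι g) (∑ h, c h) + (Nat.card G : ZMod p) • c g := by
    conv_lhs => rw [← Equiv.sum_comp (Equiv.mulLeft g)]
    simp only [Equiv.coe_mulLeft, hc g, Finset.sum_add_distrib, map_sum, Finset.sum_const,
      Finset.card_univ, Nat.card_eq_fintype_card, Nat.cast_smul_eq_nsmul]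
  rw [map_neg, map_smul, sub_neg_eq_add, neg_add_eq_sub, ← smul_sub]
  conv_lhs => arg 2; arg 1; rw [hsum]
  rw [add_sub_cancel_left, inv_smul_smul₀ hG]

end Finite

/-- The first group of the statement is the group of cochains. -/
theorem sha₁_eq_range (hp2 : p ≠ 2) (hsm : Smooth M.ρ) :
    sha₁ S M = LinearMap.range (sha1ToH1 (S := S) M) := by
  classical
  obtain ⟨F, hF, hF'⟩ := hsm
  ext x
  constructor
  · rintro ⟨hS, hloc⟩
    obtain ⟨c, hc, rfl⟩ := (mem_continuousH1S_iff S M x).1 hS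
    have hmem : (c : GG → M) ∈ Sha1 M.ρ S stdPlace := by
      have hcoc : ∀ g h, (c : GG → M) (g * h) = (c : GG → M) g + M.ρ g ((c : GG → M) h) :=
        fun g h => ((mem_cocycles₁_iff _).1 c.2 g h).trans (add_comm _ _)
      obtain ⟨E, hE, hl⟩ := hc
      refine (mem_sha1 stdPlace).2 ⟨⟨⟨⟨E, hE.1, hl⟩, hcoc⟩, E, hE, hl⟩, fun q hq => ?_⟩
      have key : ∀ v : extArithIndex S,
          ∃ a : M, ∀ g, M.ρ (extArithLoc S v g) a - a = (c : GG → M) (extArithLoc S v g) :=
        fun v => by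
          have h0 : (locRes (extArithLoc S) M v).hom ((H1π M).hom c) = 0 :=
            congrFun (LinearMap.mem_ker.1 hloc) v
          erw [H1π_comp_map_apply] at h0
          obtain ⟨a, ha⟩ := (H1π_eq_zero_iff _).1 h0
          exact ⟨a, fun g => congrFun ha g⟩
      obtain ⟨a, ha⟩ := key (Sum.inr ⟨q, hq⟩)
      refine ⟨a, funext fun σ => ?_⟩
      haveI := hE.1
      obtain ⟨N, hN, hNn, hle⟩ := exists_normal_le (E ⊔ F)
      obtain ⟨τ, hτ⟩ := localMap_approx q σ.2 N
      have hs := IntermediateField.fixingSubgroup_antitone (le_sup_left.trans hle) hτ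
      have ht := IntermediateField.fixingSubgroup_antitone (le_sup_right.trans hle) hτ
      have h1 : M.ρ (primeLocalToGlobal q τ) a - a = (c : GG → M) (primeLocalToGlobal q τ) :=
        ha τ
      show M.ρ (σ : GG) a - a = (c : GG → M) σ
      rw [show (σ : GG) = primeLocalToGlobal q τ * ((primeLocalToGlobal q τ)⁻¹ * σ) by group,
        hl _ _ hs, rho_mul, hF' _ ht, LinearMap.id_apply]
      exact h1
    exact ⟨⟨_, hmem⟩, rfl⟩
  · rintro ⟨c, rfl⟩
    obtain ⟨h, e⟩ := sha1ToH1_apply M c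
    obtain ⟨⟨⟨-, hcoc⟩, hlev⟩, hloc⟩ := (mem_sha1 stdPlace).1 c.2
    rw [e]
    refine ⟨(mem_continuousH1S_iff S M _).2 ⟨⟨(c : GG → M), h⟩, hlev, rfl⟩, LinearMap.mem_ker.2 (funext fun v => ?_)⟩
    show (locRes (extArithLoc S) M v).hom ((H1π M).hom _) = 0
    erw [H1π_comp_map_apply]
    refine (H1π_eq_zero_iff _).2 ?_
    rcases v with u | ⟨q, hq⟩
    · obtain ⟨hfin, hcard⟩ := card_arch (p := p) hp2
      obtain ⟨a, ha⟩ := exists_d0_of_card (M := M) (G := ↥archimedeanDecomposition) archimedeanLoc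
        hcard (c := fun g => (c : GG → M) (archimedeanLoc g)) fun g h => by
          rw [map_mul, hcoc, add_comm]; rfl
      exact ⟨a, funext fun g => ha g⟩
    · obtain ⟨a, ha⟩ := hloc q hq
      exact ⟨a, funext fun τ => congrFun ha ⟨_, localMap_mem q τ⟩⟩

/-- A two cocycle of a finite group of order prime to `p` is a coboundary. -/
theorem exists_d1_of_card {G : Type} [Group G] [Finite G] (ι : G →* GG)
    (hG : ((Nat.card G : ℕ) : ZMod p) ≠ 0) {x : G → G → M} {E : IntermediateField ℚ LL}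
    (hE : FiniteDimensional ℚ E)
    (hlev : ∀ g h s t, ι s ∈ E.fixingSubgroup → ι t ∈ E.fixingSubgroup → x (g * s) (h * t) = x g h)
    (hx : ∀ g h j, M.ρ (ι g) (x h j) - x (g * h) j + x g (h * j) - x g h = 0) :
    ∃ u : G → M, IsLevelConstant₁ ι u ∧
      ∀ g h, M.ρ (ι g) (u h) - u (g * h) + u g = x g h := by
  haveI := Fintype.ofFinite G
  refine ⟨fun g => (Nat.card G : ZMod p)⁻¹ • ∑ j, x g j, ⟨E, hE, fun g s hs => ?_⟩, fun g h => ?_⟩
  · refine congrArg _ (Finset.sum_congr rfl fun j _ => ?_)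
    have := hlev g j s 1 hs (by rw [map_one]; exact one_mem _)
    rwa [mul_one] at this
  · have hsum : ∑ j, x g (h * j) = ∑ j, x g j :=
      Equiv.sum_comp (Equiv.mulLeft h) (fun j => x g j)
    have h1 : ∑ j, (M.ρ (ι g) (x h j) - x (g * h) j + x g (h * j) - x g h) = 0 :=
      Finset.sum_eq_zero fun j _ => hx g h j
    simp only [Finset.sum_sub_distrib, Finset.sum_add_distrib, hsum, Finset.sum_const,
      Finset.card_univ, ← map_sum, sub_eq_zero] at h1
    simp only [map_smul, ← smul_sub, ← smul_add]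
    rw [h1, ← Nat.cast_smul_eq_nsmul (ZMod p), Nat.card_eq_fintype_card, ← Nat.card_eq_fintype_card,
      inv_smul_smul₀ hG]

/-- The class of the statement attached to a cochain. -/
def sha2ToH2 : ↥(Sha2 M.ρ S stdPlace) →ₗ[ZMod p] continuousH2S S M :=
  continuousH2Sπ S M ∘ₗ LinearMap.codRestrict (levelCocyclesS₂ S M)
    ((LinearEquiv.curry (ZMod p) M GG GG).symm.toLinearMap ∘ₗ (Sha2 M.ρ S stdPlace).subtype)
    fun c => by
      obtain ⟨⟨⟨-, hcoc⟩, E, hE, hl⟩, -⟩ := (mem_sha2 stdPlace).1 c.2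
      refine (mem_levelCocyclesS₂_iff S M _).2 ⟨(mem_cocycles₂_iff _).2 fun g h j => ?_,
        E, hE, fun g h s t hs ht => hl g h s t hs ht⟩
      show (c : GG → GG → M) (g * h) j + (c : GG → GG → M) g h =
        M.ρ g ((c : GG → GG → M) h j) + (c : GG → GG → M) g (h * j)
      have h1 := hcoc g h j
      rw [sub_eq_zero, sub_add_eq_add_sub, sub_eq_iff_eq_add] at h1
      rw [add_comm, ← h1]
      rfl

theorem sha2ToH2_apply (c : ↥(Sha2 M.ρ S stdPlace)) :
    ∃ h : (fun gh : GG × GG => (c : GG → GG → M) gh.1 gh.2) ∈ levelCocyclesS₂ S M,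
      sha2ToH2 M c = continuousH2Sπ S M ⟨_, h⟩ := ⟨_, rfl⟩

theorem ker_sha2ToH2 :
    LinearMap.ker (sha2ToH2 (S := S) M) =
      (B2S M.ρ idG S).comap (Sha2 M.ρ S stdPlace).subtype := by
  ext c
  obtain ⟨h, e⟩ := sha2ToH2_apply M c
  rw [LinearMap.mem_ker, e, continuousH2Sπ_eq_zero_iff, mem_levelCoboundariesS₂_iff,
    Submodule.mem_comap]
  constructor
  · rintro ⟨u, hu, hd⟩
    exact ⟨u, hu, funext fun g => funext fun j => congrFun hd (g, j)⟩
  · rintro ⟨u, hu, hd⟩
    exact ⟨u, hu, funext fun gj => congrFun (congrFun hd gj.1) gj.2⟩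

/-- The second group of the statement is the group of cochains. -/
theorem sha₂_eq_range (hp2 : p ≠ 2) (hsm : Smooth M.ρ) :
    sha₂ S M = LinearMap.range (sha2ToH2 (S := S) M) := by
  classical
  obtain ⟨F, hF, hF'⟩ := hsm
  ext x
  constructor
  · intro hx
    obtain ⟨⟨f, hf⟩, rfl⟩ := Submodule.mkQ_surjective _ x
    obtain ⟨hcoc, E, hE, hl⟩ := (mem_levelCocyclesS₂_iff S M f).1 hf
    have hmem : (fun g j => f (g, j)) ∈ Sha2 M.ρ S stdPlace := by
      refine (mem_sha2 stdPlace).2 ⟨⟨⟨⟨E, hE.1, hl⟩, fun g h j => ?_⟩, E, hE, hl⟩, fun q hq => ?_⟩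
      · have h1 := (mem_cocycles₂_iff _).1 hcoc g h j
        rw [sub_eq_zero, sub_add_eq_add_sub, sub_eq_iff_eq_add]
        exact h1.symm.trans (add_comm _ _)
      · have key : ∀ v : extArithIndex S, ∃ w, IsLevelConstant₁ (extArithLoc S v) w ∧
            ∀ g j, M.ρ (extArithLoc S v g) (w j) - w (g * j) + w g =
              f (extArithLoc S v g, extArithLoc S v j) := fun v => by
          have h0 : locRes₂S S M (extArithLoc S v) (continuousH2Sπ S M ⟨f, hf⟩) = 0 :=
            congrFun (LinearMap.mem_ker.1 hx) v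
          obtain ⟨w, hw, hd⟩ := (mem_levelCoboundaries₂_iff _ _ _).1
            ((continuousH2π_eq_zero_iff _ _ _).1 h0)
          exact ⟨w, hw, fun g j => congrFun hd (g, j)⟩
        obtain ⟨w, ⟨E₁, hE₁, hw⟩, hd⟩ := key (Sum.inr ⟨q, hq⟩)
        haveI := hE.1
        obtain ⟨N, hN, hNn, hle⟩ := exists_normal_le (E ⊔ F ⊔ E₁)
        haveI : N.fixingSubgroup.Normal := Brauer.fix_normal N
        have hsubE : ∀ s ∈ N.fixingSubgroup, s ∈ E.fixingSubgroup := fun s hs =>
          IntermediateField.fixingSubgroup_antitone ((le_sup_left.trans le_sup_left).trans hle) hs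
        have hsubF : ∀ s ∈ N.fixingSubgroup, s ∈ F.fixingSubgroup := fun s hs =>
          IntermediateField.fixingSubgroup_antitone ((le_sup_right.trans le_sup_left).trans hle) hs
        choose τ hτ using fun σ : ↥(Dec (stdPlace q)) => localMap_approx q σ.2 N
        have hwell : ∀ a b : primeLocalGaloisGroup q,
            (primeLocalToGlobal q a)⁻¹ * primeLocalToGlobal q b ∈ N.fixingSubgroup → w b = w a := by
          intro a b hab
          rw [← mul_inv_cancel_left a b]
          refine hw a (a⁻¹ * b) (IntermediateField.fixingSubgroup_antitone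
            (le_sup_right.trans hle) ?_)
          show primeLocalToGlobal q (a⁻¹ * b) ∈ N.fixingSubgroup
          rw [map_mul, map_inv]
          exact hab
        have hmul : ∀ σ σ' : ↥(Dec (stdPlace q)), w (τ (σ * σ')) = w (τ σ * τ σ') := fun σ σ' => by
          refine hwell _ _ ?_
          rw [map_mul]
          have h1 := hτ σ
          have h2 := hτ σ'
          have h3 := hτ (σ * σ')
          rw [Subgroup.coe_mul] at h3
          have h4 := mul_mem (mul_mem (Subgroup.Normal.conj_mem inferInstance _ h1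
            (primeLocalToGlobal q (τ σ'))⁻¹) h2) (inv_mem h3)
          convert h4 using 1
          group
        refine ⟨fun σ => w (τ σ), ⟨N, hN, fun σ s hs => hwell _ _ ?_⟩,
          funext fun σ => funext fun σ' => ?_⟩
        · have h1 := mul_mem (mul_mem (hτ σ) (show (s : GG) ∈ N.fixingSubgroup from hs))
            (inv_mem (hτ (σ * s)))
          rw [Subgroup.coe_mul] at h1
          simpa [mul_assoc] using h1
        · have h1 := hτ σ
          have h2 := hτ σ'
          have hf' : f ((σ : GG), (σ' : GG)) =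
              f (primeLocalToGlobal q (τ σ), primeLocalToGlobal q (τ σ')) := by
            conv_lhs => rw [← mul_inv_cancel_left (primeLocalToGlobal q (τ σ)) (σ : GG),
              ← mul_inv_cancel_left (primeLocalToGlobal q (τ σ')) (σ' : GG)]
            exact hl _ _ _ _ (hsubE _ h1) (hsubE _ h2)
          have hρ : M.ρ (σ : GG) = M.ρ (primeLocalToGlobal q (τ σ)) := by
            conv_lhs => rw [← mul_inv_cancel_left (primeLocalToGlobal q (τ σ)) (σ : GG), map_mul,
              hF' _ (hsubF _ h1)]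
            rfl
          show M.ρ (σ : GG) (w (τ σ')) - w (τ (σ * σ')) + w (τ σ) = f ((σ : GG), (σ' : GG))
          rw [hf', hρ, hmul σ σ']
          exact hd (τ σ) (τ σ')
    exact ⟨⟨_, hmem⟩, rfl⟩
  · rintro ⟨c, rfl⟩
    obtain ⟨h, e⟩ := sha2ToH2_apply M c
    obtain ⟨⟨⟨⟨E₀, hE₀, hl₀⟩, hcoc⟩, -⟩, hloc⟩ := (mem_sha2 stdPlace).1 c.2
    rw [e]
    refine LinearMap.mem_ker.2 (funext fun v => ?_)
    show locRes₂S S M (extArithLoc S v) (continuousH2Sπ S M _) = 0
    refine (continuousH2π_eq_zero_iff _ _ _).2 ((mem_levelCoboundaries₂_iff _ _ _).2 ?_)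
    rcases v with u | ⟨q, hq⟩
    · obtain ⟨hfin, hcard⟩ := card_arch (p := p) hp2
      obtain ⟨w, hw, hd⟩ := exists_d1_of_card M (G := ↥archimedeanDecomposition) archimedeanLoc
        hcard (x := fun g j => (c : GG → GG → M) (archimedeanLoc g) (archimedeanLoc j)) hE₀
        (fun g j s t hs ht => by simp only [map_mul]; exact hl₀ _ _ _ _ hs ht)
        (fun g j k => by simp only [map_mul]; exact hcoc _ _ _)
      exact ⟨w, hw, funext fun gj => hd gj.1 gj.2⟩
    · obtain ⟨w, ⟨E₁, hE₁, hw⟩, hd⟩ := hloc q hq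
      refine ⟨fun τ => w ⟨_, localMap_mem q τ⟩, ⟨E₁, hE₁, fun (g s : primeLocalGaloisGroup q) hs => ?_⟩,
        funext fun (gj : primeLocalGaloisGroup q × primeLocalGaloisGroup q) => ?_⟩
      · refine (congrArg w (Subtype.ext (map_mul _ _ _))).trans
          (hw ⟨_, localMap_mem q g⟩ ⟨_, localMap_mem q s⟩ hs)
      · have h1 := congrFun (congrFun hd ⟨_, localMap_mem q gj.1⟩) ⟨_, localMap_mem q gj.2⟩
        refine Eq.trans ?_ h1
        show _ = M.ρ (primeLocalToGlobal q gj.1) (w ⟨_, localMap_mem q gj.2⟩) -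
          w (⟨_, localMap_mem q gj.1⟩ * ⟨_, localMap_mem q gj.2⟩) + w ⟨_, localMap_mem q gj.1⟩
        rw [← congrArg w (Subtype.ext (map_mul (primeLocalToGlobal q) gj.1 gj.2) :
          (⟨_, localMap_mem q (gj.1 * gj.2)⟩ : ↥(Dec (stdPlace q))) =
            ⟨_, localMap_mem q gj.1⟩ * ⟨_, localMap_mem q gj.2⟩)]
        rfl

end FLTAgent.PoitouTate
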