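import Fermat.Agent.PoitouTate.Sha.Image

/-!
# Equality of the dimensions of the two Tate-Shafarevich groups

The module sits in a coinduced one; the bounds for this sequence and for the dual one add up to
the lower bounds.
-/

set_option autoImplicit false
set_option linter.style.haveILetI false
set_option linter.unusedSectionVars false
set_option maxHeartbeats 1000000

noncomputable section

open scoped Pointwise

namespace FLTAgent.PoitouTate

open FLTAgent.Lowering.P1 FLTAgent.Lowering.P1.Brauer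

local notation "LL" => AlgebraicClosure ℚ
local notation "GG" => (AlgebraicClosure ℚ ≃ₐ[ℚ] AlgebraicClosure ℚ)
local notation "VS" => ValuationSubring (AlgebraicClosure ℚ)
local notation "Dec" => ValuationSubring.decompositionSubgroup ℚ
local notation "idG" => MonoidHom.id (AlgebraicClosure ℚ ≃ₐ[ℚ] AlgebraicClosure ℚ)

variable {p : ℕ} [Fact p.Prime] {S : Finset Nat.Primes} {V : Nat.Primes → VS} (F : SField p S)
  {A A' : Type} [AddCommGroup A] [Module (ZMod p) A] [AddCommGroup A'] [Module (ZMod p) A']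
  {ρ : Representation (ZMod p) GG A} {ρ' : Representation (ZMod p) GG A'}

theorem DualPair.ext_e {P Q : DualPair ρ ρ'} (h : P.e = Q.e) : P = Q := by
  cases P; cases Q; cases h; rfl

theorem DualPair.flip_surjective [FiniteDimensional (ZMod p) A] [FiniteDimensional (ZMod p) A']
    (P : DualPair ρ ρ') : Function.Surjective P.e := by
  have hinj : Function.Injective P.e :=
    (injective_iff_map_eq_zero _).2 fun a ha => P.left a fun b => LinearMap.congr_fun ha b
  have hinj' : Function.Injective P.e.flip :=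
    (injective_iff_map_eq_zero _).2 fun b hb => P.right b fun a => LinearMap.congr_fun hb a
  refine (LinearMap.injective_iff_surjective_of_finrank_eq_finrank
    (le_antisymm (LinearMap.finrank_le_finrank_of_injective hinj) ?_)).1 hinj
  rw [Subspace.dual_finrank_eq]
  exact (LinearMap.finrank_le_finrank_of_injective hinj').trans_eq Subspace.dual_finrank_eq

/-- The embedding into the coinduced module. -/
def coindIncl (ρ : Representation (ZMod p) GG A) : A →ₗ[ZMod p] F.Γ → A :=
  LinearMap.pi fun x => ρ x.out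

theorem coindIncl_apply (a : A) (x : F.Γ) : coindIncl F ρ a x = ρ x.out a := rfl

variable {F}

theorem out_mul (hρ : F.Triv ρ) (x : F.Γ) (g : GG) (a : A) :
    ρ (x * (g : F.Γ)).out a = ρ x.out (ρ g a) := by
  have h : (((x * (g : F.Γ)).out : GG) : F.Γ) = ((x.out * g : GG) : F.Γ) := by
    rw [QuotientGroup.out_eq', QuotientGroup.mk_mul, QuotientGroup.out_eq']
  have h1 := hρ _ (QuotientGroup.eq.1 h)
  calc ρ (x * (g : F.Γ)).out a
      = ρ (x * (g : F.Γ)).out (ρ (((x * (g : F.Γ)).out)⁻¹ * (x.out * g)) a) := by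
        rw [h1, LinearMap.id_apply]
    _ = _ := by rw [← rho_mul, mul_inv_cancel_left, rho_mul]

theorem coindIncl_equivar (hρ : F.Triv ρ) : Equivar ρ (F.coind A) (coindIncl F ρ) :=
  fun g a => funext fun x => by
    rw [SField.coind_apply, coindIncl_apply, coindIncl_apply, out_mul hρ]

theorem coindIncl_injective : Function.Injective (coindIncl F ρ) := fun a b h => by
  have h1 := congrArg (fun m => ρ ((1 : F.Γ).out)⁻¹ m) (congrFun h (1 : F.Γ))
  simp only [coindIncl_apply] at h1
  rwa [← rho_mul, ← rho_mul, inv_mul_cancel, rho_one, rho_one] at h1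

variable (F) [Fintype F.Γ]

/-- The projection of the coinduced module. -/
def coindProj (ρ' : Representation (ZMod p) GG A') : (F.Γ → A') →ₗ[ZMod p] A' :=
  ∑ x : F.Γ, ρ' (x.out)⁻¹ ∘ₗ LinearMap.proj x

theorem coindProj_apply (h : F.Γ → A') :
    coindProj F ρ' h = ∑ x : F.Γ, ρ' (x.out)⁻¹ (h x) := by
  simp [coindProj]

variable {F}

theorem coindProj_equivar (hρ' : F.Triv ρ') :
    Equivar (F.coind A') ρ' (coindProj F ρ') := fun g h => by
  rw [coindProj_apply, coindProj_apply, map_sum]
  refine Fintype.sum_equiv (Equiv.mulRight (g : F.Γ)) _ _ fun x => ?_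
  rw [Equiv.coe_mulRight, SField.coind_apply]
  set m := h (x * (g : F.Γ))
  calc ρ' (x.out)⁻¹ m
      = ρ' (x.out)⁻¹ (ρ' (x * (g : F.Γ)).out (ρ' ((x * (g : F.Γ)).out)⁻¹ m)) := by
        rw [← rho_mul ρ' (x * (g : F.Γ)).out, mul_inv_cancel, rho_one]
    _ = _ := by rw [out_mul hρ', ← rho_mul, inv_mul_cancel, rho_one]

theorem coindProj_surjective : Function.Surjective (coindProj F ρ') := fun a => by
  classical
  refine ⟨Pi.single 1 (ρ' ((1 : F.Γ).out) a), ?_⟩
  rw [coindProj_apply, Finset.sum_eq_single (1 : F.Γ), Pi.single_eq_same, ← rho_mul,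
    inv_mul_cancel, rho_one]
  · intro x _ hx
    rw [Pi.single_eq_of_ne hx, map_zero]
  · exact fun h => absurd (Finset.mem_univ _) h

theorem coindE_incl (P : DualPair ρ ρ') (a : A) (h : F.Γ → A') :
    (F.coindPair P).e (coindIncl F ρ a) h = P.e a (coindProj F ρ' h) := by
  show F.coindE P.e _ _ = _
  rw [SField.coindE_apply, coindProj_apply, map_sum]
  refine Finset.sum_congr rfl fun x _ => ?_
  have h1 := P.equivariant (x.out)⁻¹ (ρ x.out a) (h x)
  rw [← rho_mul, inv_mul_cancel, rho_one] at h1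
  rw [h1, coindIncl_apply]
  congr 1
  refine inv_eq_of_mul_eq_one_left ?_
  rw [← om_mul, inv_mul_cancel, om_one]

theorem coindPair_swap (P : DualPair ρ ρ') : (F.coindPair P).swap = F.coindPair P.swap :=
  DualPair.ext_e (LinearMap.ext fun f => LinearMap.ext fun f' => by
    show F.coindE P.e f' f = F.coindE P.e.flip f f'
    rw [SField.coindE_apply, SField.coindE_apply]
    rfl)

section Sequence

variable (hρ : F.Triv ρ) (hρ' : F.Triv ρ')

theorem range_incl_le (g : GG) (hρ : F.Triv ρ) :
    LinearMap.range (coindIncl F ρ) ≤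
      (LinearMap.range (coindIncl F ρ)).comap (F.coind A g) := by
  rintro _ ⟨a, rfl⟩
  exact ⟨ρ g a, coindIncl_equivar hρ g a⟩

/-- The representation on the cokernel. -/
def cokerRep : Representation (ZMod p) GG ((F.Γ → A) ⧸ LinearMap.range (coindIncl F ρ)) where
  toFun g := Submodule.mapQ _ _ (F.coind A g) (range_incl_le g hρ)
  map_one' := Submodule.linearMap_qext _ (LinearMap.ext fun f => by
    show Submodule.Quotient.mk (F.coind A 1 f) = Submodule.Quotient.mk f
    rw [rho_one])
  map_mul' g h := Submodule.linearMap_qext _ (LinearMap.ext fun f => by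
    show Submodule.Quotient.mk (F.coind A (g * h) f) =
      Submodule.Quotient.mk (F.coind A g (F.coind A h f))
    rw [rho_mul])

theorem ker_proj_le (g : GG) (h : F.Γ → A') (hρ' : F.Triv ρ')
    (hh : h ∈ LinearMap.ker (coindProj F ρ')) :
    F.coind A' g h ∈ LinearMap.ker (coindProj F ρ') := by
  rw [LinearMap.mem_ker] at hh ⊢
  rw [coindProj_equivar hρ', hh, map_zero]

/-- The representation on the kernel. -/
def kerRep : Representation (ZMod p) GG (LinearMap.ker (coindProj F ρ')) where
  toFun g := (F.coind A' g).restrict fun h hh => ker_proj_le g h hρ' hh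
  map_one' := LinearMap.ext fun h => Subtype.ext (rho_one (F.coind A') h.1)
  map_mul' g g' := LinearMap.ext fun h => Subtype.ext (rho_mul (F.coind A') g g' h.1)

variable [FiniteDimensional (ZMod p) A] [FiniteDimensional (ZMod p) A'] (P : DualPair ρ ρ')

/-- The pairing of the cokernel with the kernel. -/
def quotPair : DualPair (cokerRep hρ) (kerRep hρ') where
  e := Submodule.liftQ _ ((F.coindPair P).e.compl₂ (LinearMap.ker (coindProj F ρ')).subtype) (by
    rintro _ ⟨a, rfl⟩
    refine LinearMap.ext fun h => ?_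
    show (F.coindPair P).e (coindIncl F ρ a) h.1 = 0
    rw [coindE_incl, LinearMap.mem_ker.1 h.2, map_zero])
  equivariant g q h := by
    obtain ⟨f, rfl⟩ := Submodule.Quotient.mk_surjective _ q
    exact (F.coindPair P).equivariant g f h.1
  left q hq := by
    obtain ⟨f, rfl⟩ := Submodule.Quotient.mk_surjective _ q
    rw [Submodule.Quotient.mk_eq_zero]
    have hker : LinearMap.ker (coindProj F ρ') ≤ LinearMap.ker ((F.coindPair P).e f) :=
      fun h hh => hq ⟨h, hh⟩
    obtain ⟨inv, hinv⟩ := (coindProj F ρ').exists_rightInverse_of_surjective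
      (LinearMap.range_eq_top.2 coindProj_surjective)
    obtain ⟨a, ha⟩ := P.flip_surjective ((F.coindPair P).e f ∘ₗ inv)
    refine ⟨a, ?_⟩
    refine sub_eq_zero.1 ((F.coindPair P).left _ fun h => ?_)
    rw [map_sub, LinearMap.sub_apply, coindE_incl, ha, LinearMap.comp_apply, ← map_sub]
    refine LinearMap.mem_ker.1 (hker ?_)
    rw [LinearMap.mem_ker, map_sub, ← LinearMap.comp_apply (coindProj F ρ') inv, hinv,
      LinearMap.id_apply, sub_self]
  right h hh := Subtype.ext ((F.coindPair P).right h.1 fun f =>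
    hh (Submodule.Quotient.mk f))

/-- The sequence of the coinduced module. -/
def coindSeq : DSeq P (F.coindPair P) (quotPair hρ hρ' P) where
  incl := coindIncl F ρ
  quot := Submodule.mkQ _
  proj := coindProj F ρ'
  incl' := (LinearMap.ker (coindProj F ρ')).subtype
  incl_equivar := coindIncl_equivar hρ
  quot_equivar _ _ := rfl
  proj_equivar := coindProj_equivar hρ'
  incl'_equivar _ _ := rfl
  incl_inj := coindIncl_injective
  quot_surj := Submodule.mkQ_surjective _
  proj_surj := coindProj_surjective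
  incl'_inj := Submodule.subtype_injective _
  quot_incl a := (Submodule.Quotient.mk_eq_zero _).2 ⟨a, rfl⟩
  proj_incl' x := x.2
  exact _ hi := (Submodule.Quotient.mk_eq_zero _).1 hi
  exact' h hh := ⟨⟨h, hh⟩, rfl⟩
  adj := coindE_incl P
  adj' _ _ := rfl

theorem triv_coker : F.Triv (cokerRep hρ) := fun g hg =>
  Submodule.linearMap_qext _ (LinearMap.ext fun f => by
    show Submodule.Quotient.mk (F.coind A g f) = Submodule.Quotient.mk f
    rw [F.triv_coind A g hg, LinearMap.id_apply])

theorem triv_ker : F.Triv (kerRep hρ') := fun g hg =>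
  LinearMap.ext fun h => Subtype.ext (by
    show F.coind A' g h.1 = h.1
    rw [F.triv_coind A' g hg, LinearMap.id_apply])

end Sequence

omit [Fintype F.Γ] in
/-- The lower bound in terms of the first group. -/
theorem sha1_le_sha2 [FiniteDimensional (ZMod p) A] [FiniteDimensional (ZMod p) A']
    (hfield : TargetField) (hlift : TargetLift) (hp2 : p ≠ 2)
    (hpS : ExtCitation.pPrime p ∈ S) (hV : ∀ q, (V q).LiesOverPrime (q : ℕ))
    (hρ : F.Triv ρ) (hρ' : F.Triv ρ') (P : DualPair ρ ρ')
    [FiniteDimensional (ZMod p) ↥(Sha1 ρ' S V)]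
    [FiniteDimensional (ZMod p) (SH (Sha2 ρ S V) (B2S ρ idG S))] :
    Module.finrank (ZMod p) ↥(Sha1 ρ' S V) ≤
      Module.finrank (ZMod p) (SH (Sha2 ρ S V) (B2S ρ idG S)) +
        Module.finrank (ZMod p) ↥(B1 ρ' idG) := by
  obtain ⟨C, hC⟩ := Submodule.exists_isCompl ((B1 ρ' idG).comap (Sha1 ρ' S V).subtype)
  haveI : FiniteDimensional (ZMod p) ↥(C.map (Sha1 ρ' S V).subtype) :=
    finite_of_le (Submodule.map_subtype_le _ C)
  have hdisj : Disjoint (C.map (Sha1 ρ' S V).subtype) (B1 ρ' idG) := by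
    rw [Submodule.disjoint_def]
    rintro _ ⟨c, hc, rfl⟩ hcB
    have h := Submodule.disjoint_def.1 hC.disjoint c hcB hc
    rw [h, map_zero]
  have h1 := finrank_le_sha2 hfield hlift hp2 hpS hV hρ hρ' P _ (Submodule.map_subtype_le _ C) hdisj
  have h2 := Submodule.finrank_add_eq_of_isCompl hC
  rw [Submodule.finrank_map_subtype_eq] at h1
  rw [LinearEquiv.finrank_eq (Submodule.comapSubtypeEquivOfLe (B1_le_sha1 (V := V) hρ'))] at h2
  omega

omit [Fintype F.Γ] in
/-- The two Tate-Shafarevich groups have the same finite dimension. -/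
theorem sha_eq [FiniteDimensional (ZMod p) A] [FiniteDimensional (ZMod p) A']
    (hfield : TargetField) (hlift : TargetLift) (hdual : TargetLocalDual) (hcoind : TargetCoind)
    (hp2 : p ≠ 2) (hpS : ExtCitation.pPrime p ∈ S) (hV : ∀ q, (V q).LiesOverPrime (q : ℕ))
    (hρ : F.Triv ρ) (hρ' : F.Triv ρ') (P : DualPair ρ ρ') :
    FiniteDimensional (ZMod p) ↥(Sha1 ρ' S V) ∧
      FiniteDimensional (ZMod p) (SH (Sha2 ρ S V) (B2S ρ idG S)) ∧
      Module.finrank (ZMod p) (SH (Sha2 ρ S V) (B2S ρ idG S)) =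
        Module.finrank (ZMod p) (SH (Sha1 ρ' S V) (B1 ρ' idG)) := by
  classical
  haveI : Fintype F.Γ := Fintype.ofFinite _
  obtain ⟨R, hR, -⟩ := exists_splaces F ∅ (by simp) (by simp)
  haveI := (hfield p hp2 S hpS F R hR).finiteGlobal
  set s := coindSeq hρ hρ' P
  have hI := hcoind hfield p hp2 S hpS V hV F A A' ρ ρ' P hρ hρ'
  have hI' : CoindFacts (F.coindPair P).swap S V := by
    rw [coindPair_swap]
    exact hcoind hfield p hp2 S hpS V hV F A' A ρ' ρ P.swap hρ' hρ
  haveI := finite_Z1S hρ'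
  haveI := finite_Z1S (F.triv_coind A)
  haveI := finite_Z1S (F.triv_coind A')
  haveI := finite_Z1S (triv_coker hρ)
  haveI := finite_Z1S (triv_ker hρ')
  obtain ⟨f1, h1⟩ := s.sha_bound hfield hlift hp2 hpS hV (F.triv_coind A) (F.triv_coind A')
    (triv_ker hρ') hI fun q hq b hb h => hdual hfield p hp2 S hpS F A A' ρ ρ' P hρ hρ' q hq (V q)
      (hV q) b hb h
  obtain ⟨f2, h2⟩ := s.dual.sha_bound hfield hlift hp2 hpS hV (F.triv_coind A')
    (F.triv_coind A) hρ hI' fun q hq b hb h =>
      hdual hfield p hp2 S hpS F _ _ _ _ (quotPair hρ hρ' P).swap (triv_ker hρ') (triv_coker hρ)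
        q hq (V q) (hV q) b hb h
  have h2' : Module.finrank (ZMod p) (SH (Sha2 (kerRep hρ') S V) (B2S (kerRep hρ') idG S)) +
      Module.finrank (ZMod p) ↥(Sha1 ρ' S V ⊓ (Z1S (F.coind A') idG S).map (push1 s.proj)) +
      Module.finrank (ZMod p) ↥(B1 (cokerRep hρ) idG) ≤
    Module.finrank (ZMod p) ↥(Sha1 ρ' S V) +
      Module.finrank (ZMod p)
        ↥(Sha1 (cokerRep hρ) S V ⊓ (Z1S (F.coind A) idG S).map (push1 s.quot)) := h2
  haveI : FiniteDimensional (ZMod p) ↥(Sha1 ρ' S V) := finite_of_le sha1_le_Z1S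
  haveI : FiniteDimensional (ZMod p) ↥(Sha1 (cokerRep hρ) S V) := finite_of_le sha1_le_Z1S
  have l1 := sha1_le_sha2 hfield hlift hp2 hpS hV hρ hρ' P
  have l2 := sha1_le_sha2 hfield hlift hp2 hpS hV (triv_ker hρ') (triv_coker hρ)
    (quotPair hρ hρ' P).swap
  have h3 := finrank_SH (Sha1 ρ' S V) (B1 ρ' idG) (B1_le_sha1 hρ')
  exact ⟨inferInstance, f1, by omega⟩

end FLTAgent.PoitouTate
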