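import Fermat.Agent.PoitouTate.Sha.Upper

/-!
# The image in the second Tate-Shafarevich group of the coinduced module

It is orthogonal to the locally trivial classes whose projection is a coboundary.
-/

set_option autoImplicit false
set_option linter.style.haveILetI false
set_option linter.unusedSectionVars false
set_option maxHeartbeats 1000000

noncomputable section

open scoped Pointwise

namespace FLTAgent.PoitouTate

open FLTAgent.Lowering.P1 FLTAgent.Lowering.P1.Brauer

local notation "LL" => AlgebraicClosure ℚ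
local notation "GG" => (AlgebraicClosure ℚ ≃ₐ[ℚ] AlgebraicClosure ℚ)
local notation "VS" => ValuationSubring (AlgebraicClosure ℚ)
local notation "Dec" => ValuationSubring.decompositionSubgroup ℚ
local notation "idG" => MonoidHom.id (AlgebraicClosure ℚ ≃ₐ[ℚ] AlgebraicClosure ℚ)

variable {p : ℕ} [Fact p.Prime] {S : Finset Nat.Primes} {V : Nat.Primes → VS} {F : SField p S}
  {A A' I I' Q Q' : Type} [AddCommGroup A] [Module (ZMod p) A] [AddCommGroup A']
  [Module (ZMod p) A'] [AddCommGroup I] [Module (ZMod p) I] [AddCommGroup I'] [Module (ZMod p) I']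
  [AddCommGroup Q] [Module (ZMod p) Q] [AddCommGroup Q'] [Module (ZMod p) Q']
  [FiniteDimensional (ZMod p) A] [FiniteDimensional (ZMod p) A'] [FiniteDimensional (ZMod p) I]
  [FiniteDimensional (ZMod p) I'] [FiniteDimensional (ZMod p) Q] [FiniteDimensional (ZMod p) Q']
  {ρ : Representation (ZMod p) GG A} {ρ' : Representation (ZMod p) GG A'}
  {β : Representation (ZMod p) GG I} {β' : Representation (ZMod p) GG I'}
  {κ : Representation (ZMod p) GG Q} {κ' : Representation (ZMod p) GG Q'}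
  {P : DualPair ρ ρ'} {PI : DualPair β β'} {PQ : DualPair κ κ'}

theorem DSeq.push_mem_sha2 (s : DSeq P PI PQ) {c : GG → GG → A} (hc : c ∈ Sha2 ρ S V) :
    push2 s.incl c ∈ Sha2 β S V := by
  rw [mem_sha2] at hc ⊢
  exact ⟨push2_mem_Z2S s.incl_equivar hc.1, fun q hq => by
    rw [res2_push2]; exact push2_mem_B2 s.incl_equivar (hc.2 q hq)⟩

variable (S V) in
/-- The map of second Tate-Shafarevich groups. -/
def DSeq.shaMap (s : DSeq P PI PQ) :
    SH (Sha2 ρ S V) (B2S ρ idG S) →ₗ[ZMod p] SH (Sha2 β S V) (B2S β idG S) :=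
  Submodule.mapQ _ _
    (LinearMap.codRestrict (Sha2 β S V) (push2 s.incl ∘ₗ (Sha2 ρ S V).subtype)
      fun x => s.push_mem_sha2 x.2)
    fun _ hx => push2_mem_B2S (σ := β) s.incl_equivar (Submodule.mem_comap.1 hx)

theorem DSeq.shaMap_mk (s : DSeq P PI PQ) (x : ↥(Sha2 ρ S V)) :
    s.shaMap S V (Submodule.Quotient.mk x) =
      Submodule.Quotient.mk ⟨push2 s.incl x.1, s.push_mem_sha2 x.2⟩ := rfl

theorem exists_triv_extRep {F : SField p S} (P : DualPair ρ ρ') (hρ : F.Triv ρ)
    (Y : Submodule (ZMod p) (GG → A')) [FiniteDimensional (ZMod p) Y] (hY : Y ≤ Sha1 ρ' S V) :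
    ∃ F' : SField p S, F'.Triv (extRep P (famOf Y hY)) := by
  obtain ⟨E, hE, hlev⟩ := exists_levS_subspace Y (hY.trans (sha1_le_Z1S.trans inf_le_right))
  obtain ⟨F', hle, hFE⟩ := F.exists_extend hE
  refine ⟨F', fun g hg => LinearMap.ext fun x => Prod.ext (LinearMap.ext fun y => ?_) ?_⟩
  · have h := hlev y y.2 1 g (hFE g hg)
    rw [one_mul] at h
    rw [extRep_fst, famOf_c, h,
      show (y : GG → A') 1 = 0 from (famOf Y hY).map_one y, map_zero, sub_zero, F'.zeta g hg,
      one_mul]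
    rfl
  · rw [extRep_snd, hρ g (hle hg)]
    rfl

/-- The image of the map is small. -/
theorem DSeq.image_bound (s : DSeq P PI PQ) (hfield : TargetField) (hlift : TargetLift)
    (hp2 : p ≠ 2) (hpS : ExtCitation.pPrime p ∈ S) (hV : ∀ q, (V q).LiesOverPrime (q : ℕ))
    (hβ : F.Triv β) (hβ' : F.Triv β') (hI : CoindFacts PI S V)
    [FiniteDimensional (ZMod p) ↥(Z1S β' idG S)] :
    FiniteDimensional (ZMod p) (LinearMap.range (s.shaMap S V)) ∧
      Module.finrank (ZMod p) (LinearMap.range (s.shaMap S V)) +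
          Module.finrank (ZMod p) ↥(B1 ρ' idG) ≤
        Module.finrank (ZMod p) ↥((Sha1 β' S V).map (push1 s.proj)) := by
  classical
  haveI := hI.sha_finite
  haveI : FiniteDimensional (ZMod p) ↥(Sha1 β' S V) := finite_of_le sha1_le_Z1S
  refine ⟨inferInstance, ?_⟩
  obtain ⟨C, hC⟩ := Submodule.exists_isCompl ((B1 β' idG).comap (Sha1 β' S V).subtype)
  set Y : Submodule (ZMod p) (GG → I') := C.map (Sha1 β' S V).subtype with hYdef
  have hY : Y ≤ Sha1 β' S V := Submodule.map_subtype_le _ C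
  haveI : FiniteDimensional (ZMod p) Y := finite_of_le hY
  have hdisj : Disjoint Y (B1 β' idG) := by
    rw [Submodule.disjoint_def]
    rintro _ ⟨c, hc, rfl⟩ hcB
    have h := Submodule.disjoint_def.1 hC.disjoint c hcB hc
    rw [h, map_zero]
  have hsup : Sha1 β' S V ≤ Y ⊔ B1 β' idG := fun c hc => by
    obtain ⟨b, hb, e, he, hbe⟩ := Submodule.mem_sup.1
      ((hC.sup_eq_top ▸ Submodule.mem_top) :
        (⟨c, hc⟩ : ↥(Sha1 β' S V)) ∈ (B1 β' idG).comap (Sha1 β' S V).subtype ⊔ C)
    exact Submodule.mem_sup.2 ⟨e, ⟨e, he, rfl⟩, b, hb, by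
      rw [add_comm]; exact congrArg Subtype.val hbe⟩
  have hYdim : Module.finrank (ZMod p) Y + Module.finrank (ZMod p) ↥(B1 β' idG) =
      Module.finrank (ZMod p) ↥(Sha1 β' S V) := by
    haveI : FiniteDimensional (ZMod p) ↥(B1 β' idG) := finite_B1
    have h := Submodule.finrank_sup_add_finrank_inf_eq Y (B1 β' idG)
    rw [disjoint_iff.1 hdisj, finrank_bot, add_zero,
      le_antisymm (sup_le hY (B1_le_sha1 hβ')) hsup] at h
    exact h.symm
  obtain ⟨Θ, hΘ, hΘz⟩ := exists_theta (P := PI) hfield hlift hp2 hpS hV hβ hβ' Y hY hdisj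
  have hΘs : Function.Surjective Θ := by
    refine (LinearMap.injective_iff_surjective_of_finrank_eq_finrank
      (le_antisymm (LinearMap.finrank_le_finrank_of_injective hΘ) ?_)).1 hΘ
    rw [Subspace.dual_finrank_eq]
    refine hI.sha_le.trans (le_of_eq ?_)
    have h := finrank_SH (Sha1 β' S V) (B1 β' idG) (B1_le_sha1 hβ')
    omega
  set C' := (Sha1 β' S V).map (push1 s.proj) with hC'def
  haveI : FiniteDimensional (ZMod p) C' := Module.Finite.map _ _
  have hB1C : B1 ρ' idG ≤ C' := by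
    rintro _ ⟨n, rfl⟩
    obtain ⟨h, rfl⟩ := s.proj_surj n
    exact ⟨d0 β' idG h, B1_le_sha1 hβ' ⟨h, rfl⟩, push1_d0 s.proj_equivar h⟩
  let L : ↥Y →ₗ[ZMod p] SH C' (B1 ρ' idG) := (Submodule.mkQ _) ∘ₗ
    LinearMap.codRestrict C' (push1 s.proj ∘ₗ Y.subtype) fun y => ⟨y, hY y.2, rfl⟩
  have hL : Function.Surjective L := fun x => by
    obtain ⟨⟨_, c, hc, rfl⟩, rfl⟩ := Submodule.Quotient.mk_surjective _ x
    obtain ⟨y, hy, b, hb, rfl⟩ := Submodule.mem_sup.1 (hsup hc)
    refine ⟨⟨y, hy⟩, (Submodule.Quotient.eq _).2 ?_⟩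
    show push1 s.proj y - push1 s.proj (y + b) ∈ B1 ρ' idG
    rw [map_add, sub_add_cancel_left]
    exact neg_mem (push1_mem_B1 s.proj_equivar hb)
  have hrange : LinearMap.range (s.shaMap S V) ≤ (LinearMap.ker L).dualAnnihilator.map Θ := by
    rintro _ ⟨x, rfl⟩
    obtain ⟨x, rfl⟩ := Submodule.Quotient.mk_surjective _ x
    obtain ⟨φ, hφ⟩ := hΘs (s.shaMap S V (Submodule.Quotient.mk x))
    refine ⟨φ, (Submodule.mem_dualAnnihilator φ).2 fun y hy => ?_, hφ⟩
    obtain ⟨z, hz, hze⟩ := hΘz φ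
    rw [hze, DSeq.shaMap_mk, Submodule.Quotient.eq] at hφ
    obtain ⟨u, hu, hud⟩ := hφ
    obtain ⟨n, hn⟩ := (sh_mk_eq_zero _).1 (LinearMap.mem_ker.1 hy)
    obtain ⟨F', htriv⟩ := exists_triv_extRep PI hβ Y hY
    set u' : GG → Module.Dual (ZMod p) ↥Y × I :=
      push1 (LinearMap.inr (ZMod p) (Module.Dual (ZMod p) ↥Y) I) u with hu'
    have hu'S : u' ∈ C1S (p := p) idG S := push1_mem_C1S _ hu
    have hz' := hz.sub_d1 hu'S (d1_mem_Z2S htriv hu'S)
    set z' := z - d1 (extRep PI (famOf Y hY)) idG u' with hz'def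
    have hsnd : ∀ g h, (z' g h).2 = s.incl (x.1 g h) := fun g h => by
      have h1 : d1 β idG u g h = (z g h).2 - s.incl (x.1 g h) := congrFun (congrFun hud g) h
      rw [hz'def]
      show (z g h).2 - d1 β idG u g h = s.incl (x.1 g h)
      rw [h1, sub_sub_cancel]
    obtain ⟨hx2, hxl⟩ := (mem_sha2 V).1 x.2
    obtain ⟨hZ2, E', hE', hlev'⟩ := hz'.1
    refine hz'.apply_eq_zero hp2 hpS hV (σ := fun g h => (z' g h).1 y - P.e (x.1 g h) n)
      ⟨⟨?_, fun g h j => ?_⟩, ?_⟩ fun q hq => ?_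
    · obtain ⟨E₁, hE₁, hl₁⟩ := hZ2.1
      obtain ⟨E₂, hE₂, hl₂⟩ := hx2.1.1
      exact ⟨E₁ ⊔ E₂, inferInstance, fun g h a b ha hb => by
        dsimp only
        rw [hl₁ g h a b (IntermediateField.fixingSubgroup_antitone le_sup_left ha)
          (IntermediateField.fixingSubgroup_antitone le_sup_left hb),
          hl₂ g h a b (IntermediateField.fixingSubgroup_antitone le_sup_right ha)
          (IntermediateField.fixingSubgroup_antitone le_sup_right hb)]⟩
    · have h1 := congrArg (fun w : Module.Dual (ZMod p) ↥Y × I => w.1 y) (hZ2.2 g h j)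
      have h2 := congrArg (fun m : A => P.e m n) (hx2.1.2 g h j)
      simp only [Prod.fst_sub, Prod.fst_add, Prod.fst_zero, LinearMap.sub_apply,
        LinearMap.add_apply, LinearMap.zero_apply, extRep_fst, famOf_c, hsnd, MonoidHom.id_apply,
        ← s.incl_equivar _ _, s.adj, map_sub, map_add, map_zero] at h1 h2
      have hyg : s.proj ((y : GG → I') g) = ρ' g n - n := (congrFun hn g).symm
      rw [hyg, map_sub, P.equivariant] at h1
      simp only [MonoidHom.id_apply, omRep_apply]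
      linear_combination h1 - h2
    · obtain ⟨E₂, hE₂, hl₂⟩ := hx2.2
      exact ⟨E' ⊔ E₂, hE'.sup hE₂, fun g h a b ha hb => by
        dsimp only
        rw [hlev' g h a b (IntermediateField.fixingSubgroup_antitone le_sup_left ha)
          (IntermediateField.fixingSubgroup_antitone le_sup_left hb),
          hl₂ g h a b (IntermediateField.fixingSubgroup_antitone le_sup_right ha)
          (IntermediateField.fixingSubgroup_antitone le_sup_right hb)]⟩
    · obtain ⟨a, ha⟩ := ((mem_sha1 V).1 (hY y.2)).2 q hq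
      refine ⟨a, fun g => (congrFun ha g).symm, ?_⟩
      have hfix : ∀ g : ↥(Dec (V q)), ρ' (g : GG) (s.proj a - n) = s.proj a - n := fun g => by
        have h1 : s.proj ((y : GG → I') g) = ρ' (g : GG) n - n := (congrFun hn (g : GG)).symm
        have h2 : (y : GG → I') g = β' (g : GG) a - a := (congrFun ha g).symm
        rw [h2, map_sub, s.proj_equivar, sub_eq_sub_iff_sub_eq_sub, ← map_sub] at h1
        exact h1
      have e : res2 (p := p) (Dec (V q)).subtype (fun g h => (z' g h).1 y - P.e (x.1 g h) n) -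
          push2 (split PI y a) (res2 (p := p) (Dec (V q)).subtype z') =
          push2 (P.e.flip (s.proj a - n)) (res2 (p := p) (Dec (V q)).subtype x.1) := by
        funext g h
        simp only [Pi.sub_apply, res2_apply, push2_apply, split_apply, hsnd, s.adj, map_sub,
          LinearMap.sub_apply, LinearMap.flip_apply]
        abel
      rw [e]
      refine push2_mem_B2_on (σ := omRep p) (fun g m => ?_) (hxl q hq)
      show P.e (ρ (g : GG) m) (s.proj a - n) = omRep p (g : GG) (P.e m (s.proj a - n))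
      conv_lhs => rw [← hfix g]
      rw [P.equivariant, omRep_apply]
  have h1 : Module.finrank (ZMod p) (LinearMap.range (s.shaMap S V)) +
      Module.finrank (ZMod p) (LinearMap.ker L) ≤ Module.finrank (ZMod p) Y := by
    rw [← Subspace.finrank_add_finrank_dualAnnihilator_eq (LinearMap.ker L), add_comm]
    exact Nat.add_le_add_left ((Submodule.finrank_mono hrange).trans (Submodule.finrank_map_le _ _)) _
  have h2 := LinearMap.finrank_range_add_finrank_ker L
  rw [LinearMap.range_eq_top.2 hL, finrank_top] at h2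
  have h3 := finrank_SH C' (B1 ρ' idG) hB1C
  omega

/-- The bound for one sequence. -/
theorem DSeq.sha_bound (s : DSeq P PI PQ) (hfield : TargetField) (hlift : TargetLift)
    (hp2 : p ≠ 2) (hpS : ExtCitation.pPrime p ∈ S) (hV : ∀ q, (V q).LiesOverPrime (q : ℕ))
    (hβ : F.Triv β) (hβ' : F.Triv β') (hκ' : F.Triv κ')
    (hI : CoindFacts PI S V)
    (hdual : ∀ q ∈ S, ∀ b ∈ Z1 ρ' (Dec (V q)).subtype,
      (∀ a ∈ Z1 ρ (Dec (V q)).subtype,
        invL p (V q) (Dec (V q)) (cup (Dec (V q)).subtype P.e ρ' a b) = 0) →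
      b ∈ B1 ρ' (Dec (V q)).subtype)
    [FiniteDimensional (ZMod p) ↥(Z1S ρ' idG S)] [FiniteDimensional (ZMod p) ↥(Z1S β' idG S)]
    [FiniteDimensional (ZMod p) ↥(Z1S κ idG S)] :
    FiniteDimensional (ZMod p) (SH (Sha2 ρ S V) (B2S ρ idG S)) ∧
      Module.finrank (ZMod p) (SH (Sha2 ρ S V) (B2S ρ idG S)) +
          Module.finrank (ZMod p) ↥(Sha1 κ S V ⊓ (Z1S β idG S).map (push1 s.quot)) +
          Module.finrank (ZMod p) ↥(B1 ρ' idG) ≤
        Module.finrank (ZMod p) ↥(Sha1 κ S V) +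
          Module.finrank (ZMod p) ↥(Sha1 ρ' S V ⊓ (Z1S β' idG S).map (push1 s.proj)) := by
  obtain ⟨hk, h1⟩ := s.kernel_bound hp2 hpS hV hβ hβ' hκ' hI hdual (s.shaMap S V)
    fun x => ⟨_, s.shaMap_mk x⟩
  obtain ⟨hr, h2⟩ := s.image_bound hfield hlift hp2 hpS hV hβ hβ' hI
  haveI := hk
  haveI := hr
  haveI : FiniteDimensional (ZMod p) (SH (Sha2 ρ S V) (B2S ρ idG S) ⧸
      LinearMap.ker (s.shaMap S V)) :=
    Module.Finite.equiv (s.shaMap S V).quotKerEquivRange.symm
  haveI : FiniteDimensional (ZMod p) (SH (Sha2 ρ S V) (B2S ρ idG S)) :=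
    Module.Finite.of_submodule_quotient (LinearMap.ker (s.shaMap S V))
  refine ⟨inferInstance, ?_⟩
  rw [← LinearMap.finrank_range_add_finrank_ker (s.shaMap S V)]
  omega

end FLTAgent.PoitouTate
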