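import Fermat.Agent.PoitouTate.Sha.Basic

/-!
# The lower bound for the second Tate-Shafarevich group

An extension of the module by a space of locally trivial classes; global classes with a given
local part at one place over `p`; the sum formula makes the resulting map injective.
-/

set_option autoImplicit false
set_option linter.style.haveILetI false
set_option linter.unusedSectionVars false
set_option maxHeartbeats 1000000

noncomputable section

open scoped Pointwise

namespace FLTAgent.PoitouTate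

open FLTAgent.Lowering.P1 FLTAgent.Lowering.P1.Brauer

local notation "LL" => AlgebraicClosure ℚ
local notation "GG" => (AlgebraicClosure ℚ ≃ₐ[ℚ] AlgebraicClosure ℚ)
local notation "VS" => ValuationSubring (AlgebraicClosure ℚ)
local notation "Dec" => ValuationSubring.decompositionSubgroup ℚ

variable {p : ℕ} [Fact p.Prime] {S : Finset Nat.Primes}
  {A A' : Type} [AddCommGroup A] [Module (ZMod p) A] [AddCommGroup A'] [Module (ZMod p) A']
  {ρ : Representation (ZMod p) GG A} {ρ' : Representation (ZMod p) GG A'}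

theorem push2_mem_B2_on {G : Type} [Group G] {ι : G →* GG} {B : Type} [AddCommGroup B]
    [Module (ZMod p) B] {σ : Representation (ZMod p) GG B} {f : A →ₗ[ZMod p] B}
    (hf : ∀ g a, f (ρ (ι g) a) = σ (ι g) (f a)) {c : G → G → A} (hc : c ∈ B2 ρ ι) :
    push2 f c ∈ B2 σ ι := by
  obtain ⟨u, hu, rfl⟩ := hc
  refine ⟨push1 f u, push1_mem_C1 f hu, ?_⟩
  funext g h
  simp only [push2_apply, d1_apply, map_add, map_sub, hf g, push1_apply]

theorem res2_sub_mem_B2 (H : Subgroup GG) {c : GG → GG → A} (hc : c ∈ B2 ρ (MonoidHom.id GG)) :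
    res2 (p := p) H.subtype c ∈ B2 ρ H.subtype := by
  have h := res2_mem_B2 (ρ := ρ) (ι := MonoidHom.id GG) H.subtype hc
  rwa [MonoidHom.id_comp] at h

theorem res1_sub_mem_Z1 (H : Subgroup GG) {c : GG → A} (hc : c ∈ Z1 ρ (MonoidHom.id GG)) :
    res1 (p := p) H.subtype c ∈ Z1 ρ H.subtype := by
  have h := res1_mem_Z1 (ρ := ρ) (ι := MonoidHom.id GG) H.subtype hc
  rwa [MonoidHom.id_comp] at h

theorem res2_sub_mem_Z2 (H : Subgroup GG) {c : GG → GG → A} (hc : c ∈ Z2 ρ (MonoidHom.id GG)) :
    res2 (p := p) H.subtype c ∈ Z2 ρ H.subtype := by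
  have h := res2_mem_Z2 (ρ := ρ) (ι := MonoidHom.id GG) H.subtype hc
  rwa [MonoidHom.id_comp] at h

variable (P : DualPair ρ ρ') {U : Type} [AddCommGroup U] [Module (ZMod p) U]

/-- A linear family of cocycles. -/
structure Family (ρ' : Representation (ZMod p) GG A') (U : Type) [AddCommGroup U]
    [Module (ZMod p) U] where
  c : U →ₗ[ZMod p] GG → A'
  cocycle : ∀ u g h, c u (g * h) = c u g + ρ' g (c u h)

variable (C : Family ρ' U)

/-- The off diagonal entry. -/
def twist (g : GG) : A →ₗ[ZMod p] Module.Dual (ZMod p) U :=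
  -((P.e.compl₂ ((LinearMap.proj g : (GG → A') →ₗ[ZMod p] A') ∘ₗ C.c)) ∘ₗ ρ g)

theorem twist_apply (g : GG) (m : A) (u : U) :
    twist P C g m u = -P.e (ρ g m) (C.c u g) := rfl

theorem Family.map_one (u : U) : C.c u 1 = 0 := by
  have h := C.cocycle u 1 1
  rwa [one_mul, rho_one, left_eq_add] at h

/-- The extension of the module by the twisted dual of the family. -/
def extRep : Representation (ZMod p) GG (Module.Dual (ZMod p) U × A) where
  toFun g := LinearMap.prod
    (om p g • LinearMap.fst (ZMod p) (Module.Dual (ZMod p) U) A +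
      twist P C g ∘ₗ LinearMap.snd (ZMod p) (Module.Dual (ZMod p) U) A)
    (ρ g ∘ₗ LinearMap.snd (ZMod p) (Module.Dual (ZMod p) U) A)
  map_one' := LinearMap.ext fun x => Prod.ext (LinearMap.ext fun u => by
      show om p (1 : GG) * x.1 u + -P.e (ρ 1 x.2) (C.c u 1) = x.1 u
      rw [C.map_one, map_zero, neg_zero, add_zero, om_one, one_mul]) (by
      show ρ 1 x.2 = x.2
      exact rho_one ρ x.2)
  map_mul' g h := LinearMap.ext fun x => Prod.ext (LinearMap.ext fun u => by
      show om p (g * h) * x.1 u + -P.e (ρ (g * h) x.2) (C.c u (g * h)) =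
        om p g * (om p h * x.1 u + -P.e (ρ h x.2) (C.c u h)) +
          -P.e (ρ g (ρ h x.2)) (C.c u g)
      rw [C.cocycle, map_add, rho_mul, P.equivariant, om_mul]
      ring) (by
      show ρ (g * h) x.2 = ρ g (ρ h x.2)
      exact rho_mul ρ g h x.2)

theorem extRep_fst (g : GG) (x : Module.Dual (ZMod p) U × A) (u : U) :
    (extRep P C g x).1 u = om p g * x.1 u - P.e (ρ g x.2) (C.c u g) := by
  show om p g * x.1 u + -P.e (ρ g x.2) (C.c u g) = _
  rw [sub_eq_add_neg]

theorem extRep_snd (g : GG) (x : Module.Dual (ZMod p) U × A) :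
    (extRep P C g x).2 = ρ g x.2 := rfl

theorem equivar_snd :
    Equivar (extRep P C) ρ (LinearMap.snd (ZMod p) (Module.Dual (ZMod p) U) A) :=
  fun g x => extRep_snd P C g x

theorem extRep_inl (g : GG) (φ : Module.Dual (ZMod p) U) :
    extRep P C g (φ, 0) = om p g • ((φ, 0) : Module.Dual (ZMod p) U × A) :=
  Prod.ext (LinearMap.ext fun u => by
    rw [extRep_fst]
    show om p g * φ u - P.e (ρ g 0) (C.c u g) = om p g * φ u
    simp) (by
    show ρ g (0 : A) = om p g • (0 : A)
    simp)

/-- Evaluation, corrected by a local trivialisation. -/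
def split (u : U) (a : A') : Module.Dual (ZMod p) U × A →ₗ[ZMod p] ZMod p :=
  LinearMap.applyₗ u ∘ₗ LinearMap.fst (ZMod p) (Module.Dual (ZMod p) U) A -
    P.e.flip a ∘ₗ LinearMap.snd (ZMod p) (Module.Dual (ZMod p) U) A

theorem split_apply (u : U) (a : A') (x : Module.Dual (ZMod p) U × A) :
    split P u a x = x.1 u - P.e x.2 a := rfl

theorem split_equivariant {u : U} {a : A'} {g : GG} (hg : C.c u g = ρ' g a - a)
    (x : Module.Dual (ZMod p) U × A) :
    split P u a (extRep P C g x) = omRep p g (split P u a x) := by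
  rw [split_apply, split_apply, omRep_apply, extRep_fst, extRep_snd, hg, map_sub, P.equivariant]
  ring

variable (V : Nat.Primes → VS)

/-- A global class whose local part at `p` is given by a functional and which is trivial
elsewhere. -/
def IsLift (S : Finset Nat.Primes) (φ : Module.Dual (ZMod p) U)
    (z : GG → GG → Module.Dual (ZMod p) U × A) : Prop :=
  z ∈ Z2S (extRep P C) (MonoidHom.id GG) S ∧
    (∀ q ∈ S, q ≠ ExtCitation.pPrime p →
      res2 (p := p) (Dec (V q)).subtype z ∈ B2 (extRep P C) (Dec (V q)).subtype) ∧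
    ∃ τ : ↥(Dec (V (ExtCitation.pPrime p))) → ↥(Dec (V (ExtCitation.pPrime p))) →
        Module.Dual (ZMod p) U,
      (res2 (p := p) (Dec (V (ExtCitation.pPrime p))).subtype z -
          push2 (LinearMap.inl (ZMod p) (Module.Dual (ZMod p) U) A) τ) ∈
        B2 (extRep P C) (Dec (V (ExtCitation.pPrime p))).subtype ∧
      ∀ u, (fun g h => τ g h u) ∈ Z2 (omRep p) (Dec (V (ExtCitation.pPrime p))).subtype ∧
        invL p (V (ExtCitation.pPrime p)) (Dec (V (ExtCitation.pPrime p)))
          (fun g h => τ g h u) = φ u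

variable {P C V}

theorem IsLift.sub_d1 {φ : Module.Dual (ZMod p) U} {z : GG → GG → Module.Dual (ZMod p) U × A}
    (h : IsLift P C V S φ z) {u : GG → Module.Dual (ZMod p) U × A}
    (hu : u ∈ C1S (p := p) (MonoidHom.id GG) S)
    (hd : d1 (extRep P C) (MonoidHom.id GG) u ∈ Z2S (extRep P C) (MonoidHom.id GG) S) :
    IsLift P C V S φ (z - d1 (extRep P C) (MonoidHom.id GG) u) := by
  obtain ⟨h1, h2, τ, h3, h4⟩ := h
  have hB : d1 (extRep P C) (MonoidHom.id GG) u ∈ B2 (extRep P C) (MonoidHom.id GG) :=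
    ⟨u, C1S_le_C1 S hu, rfl⟩
  have hloc : ∀ q, res2 (p := p) (Dec (V q)).subtype (d1 (extRep P C) (MonoidHom.id GG) u) ∈
      B2 (extRep P C) (Dec (V q)).subtype := fun q => res2_sub_mem_B2 _ hB
  refine ⟨sub_mem h1 hd, fun q hq hne => ?_, τ, ?_, h4⟩
  · rw [map_sub]
    exact sub_mem (h2 q hq hne) (hloc q)
  · rw [map_sub, sub_right_comm]
    exact sub_mem h3 (hloc _)

theorem IsLift.snd_mem_sha2 {φ : Module.Dual (ZMod p) U}
    {z : GG → GG → Module.Dual (ZMod p) U × A} (h : IsLift P C V S φ z) :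
    push2 (LinearMap.snd (ZMod p) (Module.Dual (ZMod p) U) A) z ∈ Sha2 ρ S V := by
  obtain ⟨h1, h2, τ, h3, -⟩ := h
  refine (mem_sha2 V).2 ⟨push2_mem_Z2S (equivar_snd P C) h1, fun q hq => ?_⟩
  rw [res2_push2]
  by_cases hne : q = ExtCitation.pPrime p
  · subst hne
    have e : push2 (LinearMap.snd (ZMod p) (Module.Dual (ZMod p) U) A)
        (push2 (LinearMap.inl (ZMod p) (Module.Dual (ZMod p) U) A) τ) = 0 := rfl
    have := push2_mem_B2 (equivar_snd P C) h3
    rwa [map_sub, e, sub_zero] at this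
  · exact push2_mem_B2 (equivar_snd P C) (h2 q hq hne)

/-- The sum formula applied to a lift. -/
theorem IsLift.apply_eq_zero (hp2 : p ≠ 2) (hpS : ExtCitation.pPrime p ∈ S)
    (hV : ∀ q, (V q).LiesOverPrime (q : ℕ))
    {φ : Module.Dual (ZMod p) U} {z : GG → GG → Module.Dual (ZMod p) U × A}
    (h : IsLift P C V S φ z) {u : U} {σ : GG → GG → ZMod p}
    (hσ : σ ∈ Z2S (omRep p) (MonoidHom.id GG) S)
    (hloc : ∀ q ∈ S, ∃ a : A', (∀ g : ↥(Dec (V q)), C.c u g = ρ' (g : GG) a - a) ∧
      res2 (p := p) (Dec (V q)).subtype σ -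
          push2 (split P u a) (res2 (p := p) (Dec (V q)).subtype z) ∈
        B2 (omRep p) (Dec (V q)).subtype) :
    φ u = 0 := by
  classical
  obtain ⟨-, h2, τ, h3, h4⟩ := h
  have hsum := invL_sum hp2 S hpS V hV hσ
  have hval : ∀ q ∈ S, invL p (V q) (Dec (V q)) (res2 (p := p) (Dec (V q)).subtype σ) =
      if q = ExtCitation.pPrime p then φ u else 0 := by
    intro q hq
    obtain ⟨a, ha, hB⟩ := hloc q hq
    split_ifs with hne
    · subst hne
      have e : push2 (split P u a) (push2 (LinearMap.inl (ZMod p) (Module.Dual (ZMod p) U) A) τ) =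
          fun g h => τ g h u := by
        funext g h
        simp [push2_apply, split_apply]
      have h5 := add_mem hB (push2_mem_B2_on (σ := omRep p)
        (fun g x => split_equivariant P C (ha g) x) h3)
      rw [map_sub, e, sub_add_sub_cancel] at h5
      rw [invL_congr hp2 (ExtCitation.pPrime p).2 (hV _) localSub_self (h4 u).1 h5]
      exact (h4 u).2
    · have h5 := add_mem hB (push2_mem_B2_on (σ := omRep p)
        (fun g x => split_equivariant P C (ha g) x) (h2 q hq hne))
      rw [sub_add_cancel] at h5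
      exact invL_B2 hp2 q.2 (hV q) localSub_self h5
  rw [Finset.sum_congr rfl hval, Finset.sum_ite_eq', if_pos hpS] at hsum
  exact hsum

end FLTAgent.PoitouTate
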