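import Fermat.Agent.PoitouTate.Sha.Lift

/-!
# Locally trivial classes give locally trivial classes of degree two
-/

set_option autoImplicit false
set_option linter.style.haveILetI false
set_option linter.unusedSectionVars false
set_option maxHeartbeats 400000

noncomputable section

open scoped Pointwise

namespace FLTAgent.PoitouTate

open FLTAgent.Lowering.P1 FLTAgent.Lowering.P1.Brauer

local notation "LL" => AlgebraicClosure ℚ
local notation "GG" => (AlgebraicClosure ℚ ≃ₐ[ℚ] AlgebraicClosure ℚ)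
local notation "VS" => ValuationSubring (AlgebraicClosure ℚ)
local notation "Dec" => ValuationSubring.decompositionSubgroup ℚ

variable {p : ℕ} [Fact p.Prime] {S : Finset Nat.Primes}
  {A A' : Type} [AddCommGroup A] [Module (ZMod p) A] [AddCommGroup A'] [Module (ZMod p) A']
  {ρ : Representation (ZMod p) GG A} {ρ' : Representation (ZMod p) GG A'} {P : DualPair ρ ρ'}
  {V : Nat.Primes → VS}

section Linear

variable {U : Type} [AddCommGroup U] [Module (ZMod p) U] {C : Family ρ' U}

theorem IsLift.zero (hp2 : p ≠ 2) (hV : ∀ q, (V q).LiesOverPrime (q : ℕ)) :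
    IsLift P C V S 0 0 := by
  refine ⟨zero_mem _, fun q _ _ => by rw [map_zero]; exact zero_mem _, 0, ?_,
    fun u => ⟨zero_mem _, ?_⟩⟩
  · rw [map_zero, map_zero, sub_zero]
    exact zero_mem _
  · exact invL_B2 hp2 (ExtCitation.pPrime p).2 (hV _) localSub_self (zero_mem _)

theorem IsLift.add (hp2 : p ≠ 2) (hV : ∀ q, (V q).LiesOverPrime (q : ℕ))
    {φ φ' : Module.Dual (ZMod p) U} {z z' : GG → GG → Module.Dual (ZMod p) U × A}
    (h : IsLift P C V S φ z) (h' : IsLift P C V S φ' z') :
    IsLift P C V S (φ + φ') (z + z') := by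
  obtain ⟨h1, h2, τ, h3, h4⟩ := h
  obtain ⟨k1, k2, τ', k3, k4⟩ := h'
  refine ⟨add_mem h1 k1, fun q hq hne => ?_, τ + τ', ?_,
    fun u => ⟨add_mem (h4 u).1 (k4 u).1, ?_⟩⟩
  · rw [map_add]; exact add_mem (h2 q hq hne) (k2 q hq hne)
  · rw [map_add, map_add, add_sub_add_comm]; exact add_mem h3 k3
  · exact (invL_add hp2 (ExtCitation.pPrime p).2 (hV _) localSub_self (h4 u).1 (k4 u).1).trans
      (by rw [(h4 u).2, (k4 u).2]; rfl)

theorem IsLift.smul (hp2 : p ≠ 2) (hV : ∀ q, (V q).LiesOverPrime (q : ℕ)) (r : ZMod p)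
    {φ : Module.Dual (ZMod p) U} {z : GG → GG → Module.Dual (ZMod p) U × A}
    (h : IsLift P C V S φ z) : IsLift P C V S (r • φ) (r • z) := by
  obtain ⟨h1, h2, τ, h3, h4⟩ := h
  refine ⟨Submodule.smul_mem _ r h1, fun q hq hne => ?_, r • τ, ?_,
    fun u => ⟨Submodule.smul_mem _ r (h4 u).1, ?_⟩⟩
  · rw [map_smul]; exact Submodule.smul_mem _ r (h2 q hq hne)
  · rw [map_smul, map_smul]
    convert Submodule.smul_mem _ r h3 using 1
    exact (smul_sub r _ _).symm
  · exact (invL_smul hp2 (ExtCitation.pPrime p).2 (hV _) localSub_self r (h4 u).1).trans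
      (by rw [(h4 u).2]; rfl)

end Linear

/-- The family of a space of locally trivial cocycles. -/
def famOf (Y : Submodule (ZMod p) (GG → A')) (hY : Y ≤ Sha1 ρ' S V) : Family ρ' ↥Y where
  c := Y.subtype
  cocycle y g h := ((mem_sha1 V).1 (hY y.2)).1.1.2 g h

theorem famOf_c (Y : Submodule (ZMod p) (GG → A')) (hY : Y ≤ Sha1 ρ' S V) (y : ↥Y) :
    (famOf Y hY).c y = (y : GG → A') := rfl

variable [FiniteDimensional (ZMod p) A] [FiniteDimensional (ZMod p) A']

theorem exists_lift (hfield : TargetField) (hlift : TargetLift) (hp2 : p ≠ 2)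
    (hpS : ExtCitation.pPrime p ∈ S) (hV : ∀ q, (V q).LiesOverPrime (q : ℕ)) {F : SField p S}
    (hρ : F.Triv ρ) (hρ' : F.Triv ρ') (Y : Submodule (ZMod p) (GG → A'))
    [FiniteDimensional (ZMod p) Y] (hY : Y ≤ Sha1 ρ' S V)
    (hdisj : Disjoint Y (B1 ρ' (MonoidHom.id GG))) (φ : Module.Dual (ZMod p) ↥Y) :
    ∃ z, IsLift P (famOf Y hY) V S φ z := by
  classical
  obtain ⟨E, hE, hlev⟩ := exists_levS_subspace Y (hY.trans (sha1_le_Z1S.trans inf_le_right))
  obtain ⟨F', hle, hFE⟩ := F.exists_extend hE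
  have hvan : ∀ y : ↥Y, ∀ g ∈ F'.N, (y : GG → A') g = 0 := fun y g hg => by
    have h := hlev y y.2 1 g (hFE g hg)
    rw [one_mul] at h
    rw [h]
    exact (famOf Y hY).map_one y
  by_cases htop : Dec (V (ExtCitation.pPrime p)) ⊔ F'.N = ⊤
  · refine ⟨0, ?_⟩
    have hbot : ∀ y : ↥Y, y = 0 := fun y => by
      obtain ⟨hZ, hloc⟩ := (mem_sha1 V).1 (hY y.2)
      obtain ⟨a, ha⟩ := hloc _ hpS
      have hmem : (y : GG → A') ∈ B1 ρ' (MonoidHom.id GG) := by
        refine ⟨a, funext fun g => ?_⟩
        let K : Subgroup GG :=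
          { carrier := {g | (y : GG → A') g = ρ' g a - a}
            one_mem' := by
              show (y : GG → A') 1 = ρ' 1 a - a
              rw [rho_one, sub_self]; exact (famOf Y hY).map_one y
            mul_mem' := fun {g h} (hg : (y : GG → A') g = ρ' g a - a)
                (hh : (y : GG → A') h = ρ' h a - a) => by
              show (y : GG → A') (g * h) = ρ' (g * h) a - a
              rw [hZ.1.2 g h, MonoidHom.id_apply, hg, hh, map_sub, rho_mul]
              abel
            inv_mem' := fun {g} (hg : (y : GG → A') g = ρ' g a - a) => by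
              show (y : GG → A') g⁻¹ = ρ' g⁻¹ a - a
              have h := hZ.1.2 g⁻¹ g
              rw [inv_mul_cancel, MonoidHom.id_apply,
                show (y : GG → A') 1 = 0 from (famOf Y hY).map_one y, hg, map_sub, ← rho_mul,
                inv_mul_cancel, rho_one, eq_comm, add_eq_zero_iff_eq_neg, neg_sub] at h
              exact h }
        have hK : (⊤ : Subgroup GG) ≤ K := htop ▸ sup_le
          (fun x hx => (congrFun ha ⟨x, hx⟩).symm)
          (fun x hx => by
            show (y : GG → A') x = ρ' x a - a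
            rw [hvan y x hx, hρ' x (hle hx), LinearMap.id_apply, sub_self])
        exact ((hK (Subgroup.mem_top g)) : (y : GG → A') g = ρ' g a - a).symm
      exact Subtype.ext (Submodule.disjoint_def.1 hdisj _ y.2 hmem)
    have hφ : φ = 0 := LinearMap.ext fun y => by rw [hbot y, map_zero, map_zero]
    rw [hφ]
    exact IsLift.zero hp2 hV
  · have htriv : F'.Triv (extRep P (famOf Y hY)) := fun g hg => by
      refine LinearMap.ext fun x => Prod.ext (LinearMap.ext fun y => ?_) ?_
      · rw [extRep_fst, famOf_c, hvan y g hg, map_zero, sub_zero, F'.zeta g hg, one_mul]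
        rfl
      · rw [extRep_snd, hρ g (hle hg)]
        rfl
    obtain ⟨z, hz, t, ht, ht1, hp', hq'⟩ := hlift hfield p hp2 S hpS V hV F' htop _
      (extRep P (famOf Y hY)) htriv (φ, 0) (fun g => extRep_inl P (famOf Y hY) g φ) (by
        intro ψ hψ
        -- the functional is given by an element fixed by the group
        obtain ⟨n, hn⟩ : ∃ n : A', ∀ m : A, P.e m n = ψ (0, m) := by
          have hinj : Function.Injective P.e.flip :=
            (injective_iff_map_eq_zero _).2 fun b hb => P.right b fun a => LinearMap.congr_fun hb a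
          have hdim : Module.finrank (ZMod p) A' = Module.finrank (ZMod p) (Module.Dual (ZMod p) A) := by
            refine le_antisymm (LinearMap.finrank_le_finrank_of_injective hinj) ?_
            rw [Subspace.dual_finrank_eq]
            have hinj' : Function.Injective P.e :=
              (injective_iff_map_eq_zero _).2 fun a ha => P.left a fun b => LinearMap.congr_fun ha b
            exact (LinearMap.finrank_le_finrank_of_injective hinj').trans_eq
              Subspace.dual_finrank_eq
          obtain ⟨n, hn⟩ := (LinearMap.injective_iff_surjective_of_finrank_eq_finrank hdim).1 hinj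
            (ψ ∘ₗ LinearMap.inr (ZMod p) (Module.Dual (ZMod p) ↥Y) A)
          exact ⟨n, fun m => LinearMap.congr_fun hn m⟩
        obtain ⟨y, hy⟩ := (Module.evalEquiv (ZMod p) ↥Y).surjective
          (ψ ∘ₗ LinearMap.inl (ZMod p) (Module.Dual (ZMod p) ↥Y) A)
        have hyφ : ∀ χ : Module.Dual (ZMod p) ↥Y, ψ (χ, 0) = χ y := fun χ =>
          (LinearMap.congr_fun hy χ).symm
        have hψeq : ∀ x : Module.Dual (ZMod p) ↥Y × A, ψ x = x.1 y + P.e x.2 n := fun x => by
          conv_lhs => rw [show x = (x.1, 0) + (0, x.2) by simp]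
          rw [map_add, hyφ, hn]
        have hy0 : y = 0 := by
          refine Subtype.ext (Submodule.disjoint_def.1 hdisj _ y.2 ⟨-n, funext fun g => ?_⟩)
          show ρ' g (-n) - -n = (y : GG → A') g
          refine sub_eq_zero.1 (P.right _ fun m => ?_)
          have h := hψ g (0, ρ g⁻¹ m)
          rw [hψeq, hψeq, extRep_fst, extRep_snd, ← rho_mul, mul_inv_cancel, rho_one] at h
          simp only [famOf_c, LinearMap.zero_apply, mul_zero, zero_sub, zero_add] at h
          have h2 := P.equivariant g (ρ g⁻¹ m) n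
          rw [← rho_mul, mul_inv_cancel, rho_one] at h2
          rw [map_sub, map_sub, map_neg, map_neg, map_neg, h2]
          linear_combination h
        rw [hyφ, hy0, map_zero])
    refine ⟨z, hz, hq', fun g h => t g h • φ, ?_, fun y => ⟨?_, ?_⟩⟩
    · convert hp' using 2
      funext g h
      simp [push2_apply]
    · have e : (fun g h => (t g h • φ) y) = φ y • t := by
        funext g h; simp [mul_comm]
      rw [e]
      exact Submodule.smul_mem _ _ ht
    · have e : (fun g h => (t g h • φ) y) = φ y • t := by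
        funext g h; simp [mul_comm]
      rw [e, invL_smul hp2 (ExtCitation.pPrime p).2 (hV _) localSub_self _ ht, ht1, mul_one]

/-- The map from the functionals on a space of locally trivial classes. -/
theorem exists_theta (hfield : TargetField) (hlift : TargetLift) (hp2 : p ≠ 2)
    (hpS : ExtCitation.pPrime p ∈ S) (hV : ∀ q, (V q).LiesOverPrime (q : ℕ)) {F : SField p S}
    (hρ : F.Triv ρ) (hρ' : F.Triv ρ') (Y : Submodule (ZMod p) (GG → A'))
    [FiniteDimensional (ZMod p) Y] (hY : Y ≤ Sha1 ρ' S V)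
    (hdisj : Disjoint Y (B1 ρ' (MonoidHom.id GG))) :
    ∃ Θ : Module.Dual (ZMod p) ↥Y →ₗ[ZMod p] SH (Sha2 ρ S V) (B2S ρ (MonoidHom.id GG) S),
      Function.Injective Θ ∧ ∀ φ, ∃ z, ∃ h : IsLift P (famOf Y hY) V S φ z,
        Θ φ = Submodule.Quotient.mk ⟨_, h.snd_mem_sha2⟩ := by
  classical
  let b := Module.finBasis (ZMod p) (Module.Dual (ZMod p) ↥Y)
  choose zb hzb using fun i => exists_lift (P := P) hfield hlift hp2 hpS hV hρ hρ' Y hY hdisj (b i)
  let Z := b.constr (ZMod p) zb
  have hZ : ∀ φ, IsLift P (famOf Y hY) V S φ (Z φ) := fun φ => by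
    have hmem : φ ∈ Submodule.span (ZMod p) (Set.range b) := b.span_eq ▸ Submodule.mem_top
    induction hmem using Submodule.span_induction with
    | mem x hx =>
      obtain ⟨i, rfl⟩ := hx
      rw [b.constr_basis]
      exact hzb i
    | zero => rw [map_zero]; exact IsLift.zero hp2 hV
    | add x y _ _ hx hy => rw [map_add]; exact hx.add hp2 hV hy
    | smul r x _ hx => rw [map_smul]; exact hx.smul hp2 hV r
  let Θ : Module.Dual (ZMod p) ↥Y →ₗ[ZMod p] SH (Sha2 ρ S V) (B2S ρ (MonoidHom.id GG) S) :=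
    (Submodule.mkQ _) ∘ₗ LinearMap.codRestrict (Sha2 ρ S V)
      (push2 (LinearMap.snd (ZMod p) (Module.Dual (ZMod p) ↥Y) A) ∘ₗ Z)
      fun φ => (hZ φ).snd_mem_sha2
  refine ⟨Θ, (injective_iff_map_eq_zero Θ).2 fun φ hφ => ?_, fun φ => ⟨Z φ, hZ φ, rfl⟩⟩
  obtain ⟨u, hu, hud⟩ := (sh_mk_eq_zero (hZ φ).snd_mem_sha2).1 hφ
  obtain ⟨E, hE, hlevY⟩ := exists_levS_subspace Y (hY.trans (sha1_le_Z1S.trans inf_le_right))
  obtain ⟨F', hle, hFE⟩ := F.exists_extend hE
  have htriv : F'.Triv (extRep P (famOf Y hY)) := fun g hg => by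
    refine LinearMap.ext fun x => Prod.ext (LinearMap.ext fun y => ?_) ?_
    · have h := hlevY y y.2 1 g (hFE g hg)
      rw [one_mul] at h
      rw [extRep_fst, famOf_c, h,
        show (y : GG → A') 1 = 0 from (famOf Y hY).map_one y, map_zero, sub_zero, F'.zeta g hg,
        one_mul]
      rfl
    · rw [extRep_snd, hρ g (hle hg)]
      rfl
  set u' : GG → Module.Dual (ZMod p) ↥Y × A :=
    push1 (LinearMap.inr (ZMod p) (Module.Dual (ZMod p) ↥Y) A) u with hu'
  have hu'S : u' ∈ C1S (p := p) (MonoidHom.id GG) S := push1_mem_C1S _ hu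
  have hz' := (hZ φ).sub_d1 hu'S (d1_mem_Z2S htriv hu'S)
  set z' := Z φ - d1 (extRep P (famOf Y hY)) (MonoidHom.id GG) u' with hz'def
  have hsnd : ∀ g h, (z' g h).2 = 0 := fun g h => by
    have h1 := congrFun (congrFun hud g) h
    rw [hz'def]
    show (Z φ g h).2 - (d1 (extRep P (famOf Y hY)) (MonoidHom.id GG) u' g h).2 = 0
    rw [show (Z φ g h).2 = d1 ρ (MonoidHom.id GG) u g h from h1.symm]
    exact sub_self _
  refine LinearMap.ext fun y => ?_
  obtain ⟨hZ2, E', hE', hlev'⟩ := hz'.1
  refine hz'.apply_eq_zero hp2 hpS hV (σ := fun g h => (z' g h).1 y)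
    ⟨⟨?_, fun g h j => ?_⟩, E', hE', fun g h s t hs ht => ?_⟩ fun q hq => ?_
  · obtain ⟨E₁, hE₁, hl₁⟩ := hZ2.1
    exact ⟨E₁, hE₁, fun g h s t hs ht => by dsimp only; rw [hl₁ g h s t hs ht]⟩
  · have h1 := congrArg (fun x : Module.Dual (ZMod p) ↥Y × A => x.1 y) (hZ2.2 g h j)
    simp only [Prod.fst_sub, Prod.fst_add, Prod.fst_zero, LinearMap.sub_apply, LinearMap.add_apply,
      LinearMap.zero_apply, extRep_fst, hsnd, map_zero, LinearMap.zero_apply, sub_zero] at h1
    rw [omRep_apply]
    exact h1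
  · dsimp only
    rw [hlev' g h s t hs ht]
  · obtain ⟨a, ha⟩ := ((mem_sha1 V).1 (hY y.2)).2 q hq
    refine ⟨a, fun g => (congrFun ha g).symm, ?_⟩
    have e : res2 (p := p) (Dec (V q)).subtype (fun g h => (z' g h).1 y) -
        push2 (split P y a) (res2 (p := p) (Dec (V q)).subtype z') = 0 := by
      funext g h
      simp [push2_apply, res2_apply, split_apply, hsnd]
    rw [e]
    exact zero_mem _

/-- The dimension of a space of locally trivial classes is at most that of degree two. -/
theorem finrank_le_sha2 (hfield : TargetField) (hlift : TargetLift) (hp2 : p ≠ 2)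
    (hpS : ExtCitation.pPrime p ∈ S) (hV : ∀ q, (V q).LiesOverPrime (q : ℕ)) {F : SField p S}
    (hρ : F.Triv ρ) (hρ' : F.Triv ρ') (P : DualPair ρ ρ') (Y : Submodule (ZMod p) (GG → A'))
    [FiniteDimensional (ZMod p) Y] (hY : Y ≤ Sha1 ρ' S V)
    (hdisj : Disjoint Y (B1 ρ' (MonoidHom.id GG)))
    [FiniteDimensional (ZMod p) (SH (Sha2 ρ S V) (B2S ρ (MonoidHom.id GG) S))] :
    Module.finrank (ZMod p) Y ≤
      Module.finrank (ZMod p) (SH (Sha2 ρ S V) (B2S ρ (MonoidHom.id GG) S)) := by
  obtain ⟨Θ, hΘ, -⟩ := exists_theta (P := P) hfield hlift hp2 hpS hV hρ hρ' Y hY hdisj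
  rw [← Subspace.dual_finrank_eq (K := ZMod p) (V := ↥Y)]
  exact LinearMap.finrank_le_finrank_of_injective hΘ

end FLTAgent.PoitouTate
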