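import Fermat.Agent.PoitouTate.Sha.Seq

/-!
# The local classes of a coinduced module orthogonal to the global ones

A family of local classes orthogonal to the global classes with locally trivial projection comes
from a global class and the local classes of the submodule.
-/

set_option autoImplicit false
set_option linter.style.haveILetI false
set_option linter.unusedSectionVars false
set_option maxHeartbeats 1000000
set_option synthInstance.maxHeartbeats 200000

noncomputable section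

open scoped Pointwise

namespace FLTAgent.PoitouTate

open FLTAgent.Lowering.P1 FLTAgent.Lowering.P1.Brauer

local notation "LL" => AlgebraicClosure ℚ
local notation "GG" => (AlgebraicClosure ℚ ≃ₐ[ℚ] AlgebraicClosure ℚ)
local notation "VS" => ValuationSubring (AlgebraicClosure ℚ)
local notation "Dec" => ValuationSubring.decompositionSubgroup ℚ
local notation "idG" => MonoidHom.id (AlgebraicClosure ℚ ≃ₐ[ℚ] AlgebraicClosure ℚ)

variable {p : ℕ} [Fact p.Prime] {S : Finset Nat.Primes} {V : Nat.Primes → VS} {F : SField p S}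
  {A A' I I' Q Q' : Type} [AddCommGroup A] [Module (ZMod p) A] [AddCommGroup A']
  [Module (ZMod p) A'] [AddCommGroup I] [Module (ZMod p) I] [AddCommGroup I'] [Module (ZMod p) I']
  [AddCommGroup Q] [Module (ZMod p) Q] [AddCommGroup Q'] [Module (ZMod p) Q']
  [FiniteDimensional (ZMod p) A] [FiniteDimensional (ZMod p) A'] [FiniteDimensional (ZMod p) I]
  [FiniteDimensional (ZMod p) I'] [FiniteDimensional (ZMod p) Q] [FiniteDimensional (ZMod p) Q']
  {ρ : Representation (ZMod p) GG A} {ρ' : Representation (ZMod p) GG A'}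
  {β : Representation (ZMod p) GG I} {β' : Representation (ZMod p) GG I'}
  {κ : Representation (ZMod p) GG Q} {κ' : Representation (ZMod p) GG Q'}
  {P : DualPair ρ ρ'} {PI : DualPair β β'} {PQ : DualPair κ κ'}

section Locals

variable {M M' : Type} [AddCommGroup M] [Module (ZMod p) M] [AddCommGroup M'] [Module (ZMod p) M']
  {μ : Representation (ZMod p) GG M} {μ' : Representation (ZMod p) GG M'}

/-- The families of local cocycles of degree one. -/
abbrev LocZ1 (μ : Representation (ZMod p) GG M) (S : Finset Nat.Primes) (V : Nat.Primes → VS) :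
    Type :=
  (q : ↥S) → ↥(Z1 μ (Dec (V (q : Nat.Primes))).subtype)

/-- The sum of the local pairings. -/
def locSum (hp2 : p ≠ 2) (hV : ∀ q, (V q).LiesOverPrime (q : ℕ)) (hμ' : Smooth μ')
    (R : DualPair μ μ') (S : Finset Nat.Primes) :
    LocZ1 μ S V →ₗ[ZMod p] LocZ1 μ' S V →ₗ[ZMod p] ZMod p :=
  ∑ q : ↥S, (locPair hp2 (q : Nat.Primes).2 (hV q) hμ' R).compl₁₂
    (LinearMap.proj q) (LinearMap.proj q)

theorem locSum_apply (hp2 : p ≠ 2) (hV : ∀ q, (V q).LiesOverPrime (q : ℕ)) (hμ' : Smooth μ')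
    (R : DualPair μ μ') (w : LocZ1 μ S V) (b : LocZ1 μ' S V) :
    locSum hp2 hV hμ' R S w b = ∑ q : ↥S, invL p (V q) (Dec (V q))
      (cup (Dec (V q)).subtype R.e μ' (w q).1 (b q).1) := by
  simp [locSum, locPair_apply]

theorem locSum_single_left (hp2 : p ≠ 2) (hV : ∀ q, (V q).LiesOverPrime (q : ℕ))
    (hμ' : Smooth μ') (R : DualPair μ μ') (q : ↥S) (a : ↥(Z1 μ (Dec (V q)).subtype))
    (b : LocZ1 μ' S V) :
    locSum hp2 hV hμ' R S (Pi.single q a) b =
      invL p (V q) (Dec (V q)) (cup (Dec (V q)).subtype R.e μ' a.1 (b q).1) := by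
  classical
  rw [locSum_apply, Finset.sum_eq_single q, Pi.single_eq_same]
  · intro q' _ hne
    rw [Pi.single_eq_of_ne hne]
    exact invL_B2 hp2 (q' : Nat.Primes).2 (hV q') localSub_self
      (cup_mem_B2_left R (zero_mem _) (b q').2)
  · exact fun h => absurd (Finset.mem_univ _) h

theorem locSum_single_right (hp2 : p ≠ 2) (hV : ∀ q, (V q).LiesOverPrime (q : ℕ))
    (hμ' : Smooth μ') (R : DualPair μ μ') (q : ↥S) (a : LocZ1 μ S V)
    (b : ↥(Z1 μ' (Dec (V q)).subtype)) :
    locSum hp2 hV hμ' R S a (Pi.single q b) =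
      invL p (V q) (Dec (V q)) (cup (Dec (V q)).subtype R.e μ' (a q).1 b.1) := by
  classical
  rw [locSum_apply, Finset.sum_eq_single q, Pi.single_eq_same]
  · intro q' _ hne
    rw [Pi.single_eq_of_ne hne]
    exact invL_B2 hp2 (q' : Nat.Primes).2 (hV q') localSub_self
      (cup_mem_B2_right R hμ' (a q').2 (zero_mem _))
  · exact fun h => absurd (Finset.mem_univ _) h

variable (V) in
/-- The restrictions of a space of global cocycles. -/
def resAll (S : Finset Nat.Primes) (Y : Submodule (ZMod p) (GG → M))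
    (hY : Y ≤ Z1 μ idG) : ↥Y →ₗ[ZMod p] LocZ1 μ S V :=
  LinearMap.pi fun q => LinearMap.codRestrict _
    (res1 (p := p) (Dec (V q)).subtype ∘ₗ Y.subtype) fun b => res1_sub_mem_Z1 (Dec (V q)) (hY b.2)

theorem resAll_apply (Y : Submodule (ZMod p) (GG → M)) (hY : Y ≤ Z1 μ idG) (b : ↥Y) (q : ↥S) :
    (resAll V S Y hY b q).1 = res1 (p := p) (Dec (V q)).subtype (b : GG → M) := rfl

end Locals

/-- Orthogonality to the global classes with locally trivial projection. -/
theorem DSeq.exists_of_orth (s : DSeq P PI PQ) (hp2 : p ≠ 2)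
    (hV : ∀ q, (V q).LiesOverPrime (q : ℕ)) (hβ' : F.Triv β') (hI : CoindFacts PI S V)
    (hdual : ∀ q ∈ S, ∀ b ∈ Z1 ρ' (Dec (V q)).subtype,
      (∀ a ∈ Z1 ρ (Dec (V q)).subtype,
        invL p (V q) (Dec (V q)) (cup (Dec (V q)).subtype P.e ρ' a b) = 0) →
      b ∈ B1 ρ' (Dec (V q)).subtype)
    (J : Submodule (ZMod p) (GG → I'))
    (hJ : J ≤ Z1 β' idG)
    (hJ' : ∀ b ∈ Z1S β' idG S, push1 s.proj b ∈ Sha1 ρ' S V → b ∈ J)
    (w : LocZ1 β S V)
    (hw : ∀ b : ↥J, locSum hp2 hV hβ'.smooth PI S w (resAll V S J hJ b) = 0) :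
    ∃ a ∈ Z1S β idG S, ∀ q : ↥S, (w q).1 - res1 (p := p) (Dec (V q)).subtype a ∈
      (Z1 ρ (Dec (V q)).subtype).map (push1 s.incl) ⊔ B1 β (Dec (V q)).subtype := by
  classical
  haveI : ∀ q : ↥S, FiniteDimensional (ZMod p) ↥(Z1 β (Dec (V q)).subtype) := fun q =>
    finite_Z1_of_SH (hI.finiteLocal q q.2).1
  haveI : ∀ q : ↥S, FiniteDimensional (ZMod p) ↥(Z1 β' (Dec (V q)).subtype) := fun q =>
    finite_Z1_of_SH (hI.finiteLocal q q.2).2
  set resI := resAll V S (Z1S β idG S) inf_le_left with hresI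
  let U : Submodule (ZMod p) (LocZ1 β S V) :=
    LinearMap.range resI ⊔ Submodule.pi Set.univ fun q : ↥S =>
      ((Z1 ρ (Dec (V q)).subtype).map (push1 s.incl) ⊔ B1 β (Dec (V q)).subtype).comap
        (Z1 β (Dec (V q)).subtype).subtype
  suffices hwU : w ∈ U by
    obtain ⟨y, ⟨a, rfl⟩, z, hz, rfl⟩ := Submodule.mem_sup.1 hwU
    refine ⟨a, a.2, fun q => ?_⟩
    show res1 (p := p) (Dec (V q)).subtype (a : GG → I) + (z q).1 -
      res1 (p := p) (Dec (V q)).subtype (a : GG → I) ∈ _
    rw [add_sub_cancel_left]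
    exact hz q (Set.mem_univ q)
  by_contra hwU
  obtain ⟨φ, hφw, hφU⟩ := Submodule.exists_dual_map_eq_bot_of_notMem hwU inferInstance
  set Φ := locSum hp2 hV hβ'.smooth PI S with hΦ
  have hkerU : LinearMap.ker Φ ≤ U := fun v hv => Submodule.mem_sup_right fun q _ =>
    Submodule.mem_sup_right (hI.leftNondeg q q.2 _ (v q).2 fun b hb => by
      have h := LinearMap.congr_fun (LinearMap.mem_ker.1 hv) (Pi.single q ⟨b, hb⟩)
      rw [hΦ, locSum_single_right] at h
      exact h)
  have hφU' : ∀ v ∈ U, φ v = 0 := fun v hv =>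
    (Submodule.eq_bot_iff _).1 hφU _ (Submodule.mem_map_of_mem hv)
  have hmem : φ ∈ LinearMap.range Φ.dualMap := by
    rw [LinearMap.range_dualMap_eq_dualAnnihilator_ker, Submodule.mem_dualAnnihilator]
    exact fun v hv => hφU' v (hkerU hv)
  obtain ⟨ξ, rfl⟩ := hmem
  obtain ⟨r, rfl⟩ := (Module.evalEquiv (ZMod p) (LocZ1 β' S V)).surjective ξ
  have hval : ∀ v, (Φ.dualMap ((Module.evalEquiv (ZMod p) (LocZ1 β' S V)) r)) v = Φ v r :=
    fun v => rfl
  obtain ⟨b, hb, hbr⟩ := hI.middle (fun q => (r q).1) (fun q => (r q).2) fun a ha => by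
    have h := hφU' (resI ⟨a, ha⟩) (Submodule.mem_sup_left ⟨_, rfl⟩)
    rw [hval, hΦ, locSum_apply] at h
    exact h
  have hbJ : b ∈ J := by
    refine hJ' b hb ((mem_sha1 V).2 ⟨push1_mem_Z1S s.proj_equivar hb, fun q hq => ?_⟩)
    have h1 : push1 s.proj (r ⟨q, hq⟩).1 ∈ B1 ρ' (Dec (V q)).subtype := by
      refine hdual q hq _ (push1_mem_Z1 s.proj_equivar (r ⟨q, hq⟩).2) fun α hα => ?_
      have hin : push1 s.incl α ∈ Z1 β (Dec (V q)).subtype := push1_mem_Z1 s.incl_equivar hα
      have h := hφU' (Pi.single (⟨q, hq⟩ : ↥S) ⟨_, hin⟩)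
        (Submodule.mem_sup_right fun q' _ => by
          by_cases hne : q' = ⟨q, hq⟩
          · subst hne
            rw [Pi.single_eq_same]
            exact Submodule.mem_sup_left ⟨α, hα, rfl⟩
          · rw [Pi.single_eq_of_ne hne]
            exact zero_mem _)
      rw [hval, hΦ, locSum_single_left] at h
      rw [← h]
      congr 1
      funext σ τ
      simp only [cup, push1_apply, ← s.proj_equivar _ _, s.adj]
    have h2 : res1 (p := p) (Dec (V q)).subtype (push1 s.proj b) -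
        push1 s.proj (r ⟨q, hq⟩).1 ∈ B1 ρ' (Dec (V q)).subtype := by
      rw [res1_push1, ← map_sub]
      exact push1_mem_B1 s.proj_equivar (hbr ⟨q, hq⟩)
    simpa using add_mem h2 h1
  refine hφw ?_
  have h0 := hw ⟨b, hbJ⟩
  rw [hval, hΦ, locSum_apply]
  rw [locSum_apply] at h0
  refine (Finset.sum_congr rfl fun q _ => ?_).trans h0
  refine (invL_congr hp2 (q : Nat.Primes).2 (hV q) localSub_self
    (cup_mem_Z2 PI hβ'.smooth (w q).2 (r q).2) ?_).symm
  rw [resAll_apply, ← cupLin_apply, ← cupLin_apply, ← map_sub]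
  exact cup_mem_B2_right PI hβ'.smooth (w q).2 (hbr q)

end FLTAgent.PoitouTate
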