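import Fermat.Agent.PoitouTate.Sha.Lower

/-!
# A short exact sequence with its dual, and the local pairing of degree one
-/

set_option autoImplicit false
set_option linter.style.haveILetI false
set_option linter.unusedSectionVars false

noncomputable section

open scoped Pointwise

namespace FLTAgent.PoitouTate

open FLTAgent.Lowering.P1 FLTAgent.Lowering.P1.Brauer

local notation "LL" => AlgebraicClosure ℚ
local notation "GG" => (AlgebraicClosure ℚ ≃ₐ[ℚ] AlgebraicClosure ℚ)
local notation "VS" => ValuationSubring (AlgebraicClosure ℚ)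
local notation "Dec" => ValuationSubring.decompositionSubgroup ℚ

variable {p : ℕ} [Fact p.Prime]
  {A A' I I' Q Q' : Type} [AddCommGroup A] [Module (ZMod p) A] [AddCommGroup A']
  [Module (ZMod p) A'] [AddCommGroup I] [Module (ZMod p) I] [AddCommGroup I'] [Module (ZMod p) I']
  [AddCommGroup Q] [Module (ZMod p) Q] [AddCommGroup Q'] [Module (ZMod p) Q']
  {ρ : Representation (ZMod p) GG A} {ρ' : Representation (ZMod p) GG A'}
  {β : Representation (ZMod p) GG I} {β' : Representation (ZMod p) GG I'}
  {κ : Representation (ZMod p) GG Q} {κ' : Representation (ZMod p) GG Q'}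

/-- A short exact sequence and the dual one. -/
structure DSeq (P : DualPair ρ ρ') (PI : DualPair β β') (PQ : DualPair κ κ') where
  incl : A →ₗ[ZMod p] I
  quot : I →ₗ[ZMod p] Q
  proj : I' →ₗ[ZMod p] A'
  incl' : Q' →ₗ[ZMod p] I'
  incl_equivar : Equivar ρ β incl
  quot_equivar : Equivar β κ quot
  proj_equivar : Equivar β' ρ' proj
  incl'_equivar : Equivar κ' β' incl'
  incl_inj : Function.Injective incl
  quot_surj : Function.Surjective quot
  proj_surj : Function.Surjective proj
  incl'_inj : Function.Injective incl'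
  quot_incl : ∀ a, quot (incl a) = 0
  proj_incl' : ∀ x, proj (incl' x) = 0
  exact : ∀ i, quot i = 0 → ∃ a, incl a = i
  exact' : ∀ h, proj h = 0 → ∃ x, incl' x = h
  adj : ∀ a h, PI.e (incl a) h = P.e a (proj h)
  adj' : ∀ i x, PI.e i (incl' x) = PQ.e (quot i) x

/-- The dual sequence. -/
def DSeq.dual {P : DualPair ρ ρ'} {PI : DualPair β β'} {PQ : DualPair κ κ'} (s : DSeq P PI PQ) :
    DSeq PQ.swap PI.swap P.swap where
  incl := s.incl'
  quot := s.proj
  proj := s.quot
  incl' := s.incl
  incl_equivar := s.incl'_equivar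
  quot_equivar := s.proj_equivar
  proj_equivar := s.quot_equivar
  incl'_equivar := s.incl_equivar
  incl_inj := s.incl'_inj
  quot_surj := s.proj_surj
  proj_surj := s.quot_surj
  incl'_inj := s.incl_inj
  quot_incl := s.proj_incl'
  proj_incl' := s.quot_incl
  exact := s.exact'
  exact' := s.exact
  adj a h := s.adj' h a
  adj' i x := s.adj x i

/-! ### The cup product as a bilinear map -/

variable {G : Type} [Group G] (ι : G →* GG) (P : DualPair ρ ρ')

/-- The cup product. -/
def cupLin : (G → A) →ₗ[ZMod p] (G → A') →ₗ[ZMod p] G → G → ZMod p :=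
  LinearMap.mk₂ (ZMod p) (fun a b => cup ι P.e ρ' a b)
    (fun a a' b => by funext g h; simp [cup])
    (fun r a b => by funext g h; simp [cup])
    (fun a b b' => by funext g h; simp [cup])
    (fun r a b => by funext g h; simp [cup])

theorem cupLin_apply (a : G → A) (b : G → A') : cupLin ι P a b = cup ι P.e ρ' a b := rfl

variable {ι P}

/-- The local pairing in degree one. -/
def locPair (hp2 : p ≠ 2) {l : ℕ} {W : VS} (hl : l.Prime) (hW : W.LiesOverPrime l)
    (hρ' : Smooth ρ') (P : DualPair ρ ρ') :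
    ↥(Z1 ρ (Dec W).subtype) →ₗ[ZMod p] ↥(Z1 ρ' (Dec W).subtype) →ₗ[ZMod p] ZMod p :=
  LinearMap.mk₂ (ZMod p)
    (fun a b => invLin hp2 hl hW localSub_self ⟨_, cup_mem_Z2 P hρ' a.2 b.2⟩)
    (fun a a' b => by
      rw [← map_add]
      exact congrArg _ (Subtype.ext (LinearMap.map_add₂ (cupLin (Dec W).subtype P) _ _ _)))
    (fun r a b => by
      rw [← map_smul]
      exact congrArg _ (Subtype.ext (LinearMap.map_smul₂ (cupLin (Dec W).subtype P) _ _ _)))
    (fun a b b' => by
      rw [← map_add]
      exact congrArg _ (Subtype.ext (map_add (cupLin (Dec W).subtype P a.1) _ _)))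
    (fun r a b => by
      rw [← map_smul]
      exact congrArg _ (Subtype.ext (map_smul (cupLin (Dec W).subtype P a.1) _ _)))

theorem locPair_apply (hp2 : p ≠ 2) {l : ℕ} {W : VS} (hl : l.Prime) (hW : W.LiesOverPrime l)
    (hρ' : Smooth ρ') (P : DualPair ρ ρ') (a : ↥(Z1 ρ (Dec W).subtype))
    (b : ↥(Z1 ρ' (Dec W).subtype)) :
    locPair hp2 hl hW hρ' P a b = invL p W (Dec W) (cup (Dec W).subtype P.e ρ' a.1 b.1) := rfl

theorem finrank_SH {M : Type} [AddCommGroup M] [Module (ZMod p) M] (Z B : Submodule (ZMod p) M)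
    (hB : B ≤ Z) [FiniteDimensional (ZMod p) Z] :
    Module.finrank (ZMod p) (SH Z B) + Module.finrank (ZMod p) B = Module.finrank (ZMod p) Z := by
  rw [← LinearEquiv.finrank_eq (Submodule.comapSubtypeEquivOfLe hB)]
  exact Submodule.finrank_quotient_add_finrank _

theorem finite_B1 [FiniteDimensional (ZMod p) A] :
    FiniteDimensional (ZMod p) (B1 ρ ι) :=
  Module.Finite.range _

theorem finite_Z1_of_SH [FiniteDimensional (ZMod p) A]
    (h : FiniteDimensional (ZMod p) (SH (Z1 ρ ι) (B1 ρ ι))) :
    FiniteDimensional (ZMod p) (Z1 ρ ι) := by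
  haveI := h
  haveI := finite_B1 (ρ := ρ) (ι := ι)
  haveI : FiniteDimensional (ZMod p) ((B1 ρ ι).comap (Z1 ρ ι).subtype) :=
    Module.Finite.of_injective
      (LinearMap.codRestrict (B1 ρ ι) ((Z1 ρ ι).subtype ∘ₗ Submodule.subtype _) fun x => x.2)
      fun x y e => Subtype.ext (Subtype.ext (congrArg (fun z : ↥(B1 ρ ι) => (z : G → A)) e))
  exact Module.Finite.of_submodule_quotient ((B1 ρ ι).comap (Z1 ρ ι).subtype)

end FLTAgent.PoitouTate
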